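import Fermat.Agent.TW.ESide.Ctx
import Fermat.Agent.S58.ESide
import Fermat.Agent.HW.NEVarChange

/-!
# TW / E-side : trace of Frobenius on `E[p]` in terms of an ARBITRARY integral model `W` of the Frey curve
-/

set_option autoImplicit false

namespace Fermat.Agent.TW.ESide

open Fermat.Agent.S05 Fermat.Agent.S13 Fermat.Agent.GAL
open WeierstrassCurve WeierstrassCurve.Affine WeierstrassCurve.Affine.Point

variable (P : FreyPackage)

/-- the Eichler–Shimura relation on `E[p]` for an arbitrary integral model. -/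
theorem frey_frobenius_relation_model (W : WeierstrassCurve ℤ) (hW : W.IsIntegralModelOf P.freyCurve)
    {ℓ : ℕ} (hℓ : ℓ.Prime) (hgood : W.IsGoodPrimeFor ℓ) (hpℓ : P.p ≠ ℓ)
    (A : ValuationSubring Kb) (hA : A.LiesOverPrime ℓ) (τ : Gl) (hτ : A.IsFrobeniusAt τ ℓ)
    (x : Tors P) :
    τ • τ • x - W.apOfModel ℓ • τ • x + (ℓ : ℤ) • x = 0 := by
  classical
  obtain ⟨C, hC⟩ := hW
  obtain ⟨e, he⟩ := HW.exists_addEquiv_of_variableChange (K := Kb) C hC
  have hodd : Odd P.p := P.pp.odd_of_ne_two (by have := P.hp5; omega)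
  have hcop : Nat.Coprime P.p ℓ := (Nat.coprime_primes P.pp hℓ).2 hpℓ
  have hx : P.p • (x : (EK P).Point) = 0 := by
    have h := x.2
    rw [Submodule.mem_torsionBy_iff] at h
    rw [← natCast_zsmul]
    exact h
  have h := Fermat.Agent.S58.frobenius_relation_odd W hℓ hgood hodd hcop A hA τ hτ
    (e (x : (EK P).Point)) (by rw [← map_nsmul, hx, _root_.map_zero])
  apply Subtype.ext
  apply e.injective
  have h0 : e ((0 : Tors P) : (EK P).Point) = 0 := _root_.map_zero e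
  rw [h0]
  have h2 : e ((τ • τ • x - W.apOfModel ℓ • τ • x + (ℓ : ℤ) • x : Tors P) : (EK P).Point)
      = τ • τ • e (x : (EK P).Point) - W.apOfModel ℓ • τ • e (x : (EK P).Point)
        + (ℓ : ℤ) • e (x : (EK P).Point) := by
    have h3 : ((τ • τ • x - W.apOfModel ℓ • τ • x + (ℓ : ℤ) • x : Tors P) : (EK P).Point)
        = τ • τ • (x : (EK P).Point) - W.apOfModel ℓ • τ • (x : (EK P).Point)
          + (ℓ : ℤ) • (x : (EK P).Point) := rfl
    rw [h3, map_add, map_sub, map_zsmul, map_zsmul, he, he]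
  rw [h2]
  exact h

/-- trace and determinant of Frobenius, arbitrary integral model -/
theorem rbar0_frob_model (W : WeierstrassCurve ℤ) (hW : W.IsIntegralModelOf P.freyCurve)
    {ℓ : ℕ} (hℓ : ℓ.Prime) (hgood : W.IsGoodPrimeFor ℓ) (hpℓ : P.p ≠ ℓ)
    (A : ValuationSubring Kb) (hA : A.LiesOverPrime ℓ) (τ : Gl) (hτ : A.IsFrobeniusAt τ ℓ) :
    (rbar0 P τ).trace = ((W.apOfModel ℓ : ℤ) : ZMod P.p) ∧
      (rbar0 P τ).det = ((ℓ : ℕ) : ZMod P.p) := by
  obtain ⟨u, h1, h2⟩ := exists_transvection P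
  have hχ : ((cycloChar P.p τ : (ZMod P.p)ˣ) : ZMod P.p) = ℓ :=
    cycloChar_of_isFrobeniusAt hℓ (Ne.symm hpℓ) hA hτ
  refine ⟨?_, by rw [rbar0_det, hχ]⟩
  apply trace_eq_of_quad (rbar0 P) (cycloChar P.p) (rbar0_quad P) u
    (not_scalar_of_transvection h1 h2) τ
  rw [hχ, rbar0_apply, toMat_quad]
  apply toMat_eq_zero
  intro x
  have h := frey_frobenius_relation_model P W hW hℓ hgood hpℓ A hA τ hτ x
  simp only [LinearMap.add_apply, LinearMap.sub_apply, Module.End.mul_apply, LinearMap.smul_apply,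
    rhoEnd_apply, Module.End.one_apply]
  rw [Int.cast_smul_eq_zsmul, Nat.cast_smul_eq_nsmul, ← natCast_zsmul]
  exact h

variable {P}

/-- **`ECtx` for the Frey curve**, `θ r = a_r(W)`, `W` an arbitrary integral model. -/
theorem ectx_model
    (hirr : WeierstrassCurve.Affine.Point.GaloisRepIsIrreducible (K := Kb) ℚ P.freyCurve P.p)
    (D : NormData P) (W : WeierstrassCurve ℤ) (hW : W.IsIntegralModelOf P.freyCurve)
    (T : Finset ℕ) (h2 : 2 ∈ T) (hp : P.p ∈ T)
    (hT : ∀ r : ℕ, r.Prime → (r : ℤ) ∣ W.Δ → r ∈ T) :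
    Fermat.Agent.RIB.ECtx P.p T (fun r => W.apOfModel r) (rbarN D) :=
  ectx_of_trace hirr D T _ h2 hp fun r hr hrT A hA φ hφ =>
    rbar0_frob_model P W hW hr (fun h => hrT (hT r hr h)) (fun h => hrT (h ▸ hp)) A hA φ hφ

end Fermat.Agent.TW.ESide
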