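import Fermat.Agent.TW.ESide.Node2
import Fermat.Agent.S13.WPA
import Fermat.Agent.S13.WPE
import Fermat.Agent.S36.K0

/-!
# TW / E-side : the mod `p` representation of the Frey curve is ramified at `2`
-/

set_option autoImplicit false

namespace Fermat.Agent.TW.ESide

open Fermat.Agent.S05 Fermat.Agent.S13
open WeierstrassCurve WeierstrassCurve.Affine WeierstrassCurve.Affine.Point

/-- the Frey curve at a place above `2`. -/
theorem frey_node2 (P : FreyPackage) (A : ValuationSubring Kb) (hA : A.LiesOverPrime 2) :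
    Node2 A (EK P) P.p := by
  have h2A : A.valuation ((2 : ℕ) : Kb) < 1 := hA
  have h2 : A.valuation (2 : Kb) < 1 := by simpa using h2A
  obtain ⟨m2, hm2⟩ := frey_four_dvd P
  obtain ⟨m4, hm4⟩ := frey_32_dvd P
  have ea₂ : (EK P).a₂ = ((m2 : ℤ) : Kb) := by
    have h1 : ((P.b : Kb) ^ P.p - 1 - (P.a : Kb) ^ P.p) = 4 * (m2 : Kb) := by
      exact_mod_cast congrArg (Int.cast : ℤ → Kb) hm2
    have : (EK P).a₂ = ((P.b : Kb) ^ P.p - 1 - (P.a : Kb) ^ P.p) / 4 := by
      simp [FreyPackage.freyCurve]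
    rw [this, h1]; field_simp
  have ea₄ : (EK P).a₄ = -((P.a : Kb) ^ P.p) * ((P.b : Kb) ^ P.p) / 16 := by
    simp [FreyPackage.freyCurve]
  refine ⟨h2A, two_ne_zero, P.pp, by have := P.hp5; omega, by simp [FreyPackage.freyCurve], ?_,
    by simp [FreyPackage.freyCurve], ?_, ?_, by simp [FreyPackage.freyCurve]⟩
  · rw [ea₂]; exact intCast_mem A m2
  · rw [ea₄]
    have ha : (P.a : Kb) ≠ 0 := by exact_mod_cast P.ha0
    have hb : (P.b : Kb) ≠ 0 := by exact_mod_cast P.hb0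
    exact div_ne_zero (mul_ne_zero (neg_ne_zero.2 (pow_ne_zero _ ha)) (pow_ne_zero _ hb))
      (by norm_num)
  · have h1 : (P.b : Kb) ^ P.p = 32 * (m4 : Kb) := by
      exact_mod_cast congrArg (Int.cast : ℤ → Kb) hm4
    have h3 : (EK P).a₄ = 2 * ((-(P.a ^ P.p * m4) : ℤ) : Kb) := by
      rw [ea₄, h1]; push_cast; ring
    rw [h3, map_mul]
    exact mul_lt_one_of_lt_of_le₀ h2 (valuation_intCast_le_one A _)

/-- `v(a₄)^2` is not the `p`-th power of an element of `v(2)^ℤ`. -/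
theorem frey_val_a₄ (P : FreyPackage) (A : ValuationSubring Kb) (hA : A.LiesOverPrime 2) (k : ℤ) :
    (A.valuation (2 : Kb) ^ k) ^ P.p ≠ A.valuation (EK P).a₄ ^ 2 := by
  intro heq
  have h2A : A.valuation ((2 : ℕ) : Kb) < 1 := hA
  have h2 : A.valuation (2 : Kb) < 1 := by simpa using h2A
  have hv20 : A.valuation (2 : Kb) ≠ 0 := (A.valuation.ne_zero_iff).2 two_ne_zero
  have ea₄ : (EK P).a₄ = -((P.a : Kb) ^ P.p) * ((P.b : Kb) ^ P.p) / 16 := by
    simp [FreyPackage.freyCurve]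
  have hva : A.valuation (P.a : Kb) = 1 :=
    valuation_intCast_eq_one A Nat.prime_two h2A (frey_a_odd P)
  have h16 : A.valuation (16 : Kb) = A.valuation (2 : Kb) ^ 4 := by
    rw [← map_pow]; norm_num
  have hv4 : A.valuation (EK P).a₄ = A.valuation (P.b : Kb) ^ P.p / A.valuation (2 : Kb) ^ 4 := by
    rw [ea₄, map_div₀, map_mul, Valuation.map_neg, map_pow, map_pow, hva, one_pow, one_mul, h16]
  obtain ⟨l, hl⟩ := val_rat_eq_zpow A h2A (P.b : ℚ) (by exact_mod_cast P.hb0)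
  rw [Rat.cast_intCast] at hl
  rw [hv4, hl, ← zpow_natCast, ← zpow_natCast, ← zpow_natCast, ← zpow_natCast, ← zpow_mul,
    ← zpow_mul, ← zpow_sub₀ hv20, ← zpow_mul] at heq
  have hinj := zpow_right_injective₀ (zero_lt_iff.2 hv20) h2.ne heq
  have hdvd : (P.p : ℤ) ∣ 8 := ⟨2 * l - k, by push_cast at hinj; linarith⟩
  have hdvd' : P.p ∣ 2 ^ 3 := by exact_mod_cast hdvd
  have := Nat.le_of_dvd (by norm_num) (P.pp.dvd_of_dvd_pow hdvd')
  have := P.hp5
  omega

/-- **(E1)** inertia at every place above `2` acts non trivially on the `p`-torsion of the Frey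
curve. -/
theorem frey_exists_inertia_two_ne (P : FreyPackage) (A : ValuationSubring Kb)
    (hA : A.LiesOverPrime 2) :
    ∃ σ ∈ A.inertiaSubgroupIn ℚ, ∃ Q : (EK P).Point, P.p • Q = 0 ∧ σ • Q ≠ Q := by
  by_contra hcon
  push Not at hcon
  obtain ⟨Q, hQ, hpQ, hx0, hv⟩ := (frey_node2 P A hA).exists_torsion_val (EK_Δ_ne_zero P)
  have h4 : ∀ (σ : Gl) (R : (EK P).Point), xc (σ • R) = σ (xc R) := by
    intro σ R
    cases R with
    | zero => exact (map_zero σ).symm
    | some x y h => rfl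
  obtain ⟨k, hk⟩ := S36.exists_zpow_of_inertia_fixed Nat.prime_two hA hx0
    (fun σ hσ => by rw [← h4, hcon σ hσ Q hpQ])
  refine frey_val_a₄ P A hA k ?_
  rw [← hv, hk]
  simp

/-- the same for the torsion module. -/
theorem frey_exists_inertia_two_ne' (P : FreyPackage) (A : ValuationSubring Kb)
    (hA : A.LiesOverPrime 2) :
    ∃ σ ∈ A.inertiaSubgroupIn ℚ, ∃ x : Tors P, σ • x ≠ x := by
  obtain ⟨σ, hσ, Q, hpQ, hne⟩ := frey_exists_inertia_two_ne P A hA
  refine ⟨σ, hσ, ⟨Q, ?_⟩, fun h => hne (congrArg Subtype.val h)⟩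
  rw [Submodule.mem_torsionBy_iff, natCast_zsmul]
  exact hpQ

/-- the mod `p` representation of the Frey curve is ramified at `2`. -/
theorem frey_not_unramified_two (P : FreyPackage) : ¬ P.GaloisRepUnramifiedAt 2 := by
  intro h
  obtain ⟨A, hA⟩ := Fermat.Agent.S54.exists_liesOverPrime Nat.prime_two
  obtain ⟨σ, hσ, x, hx⟩ := frey_exists_inertia_two_ne' P A hA
  exact hx (h A hA σ hσ x)

end Fermat.Agent.TW.ESide
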