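import Mathlib

/-!
# TW / E-side : abstract "big image" lemmas for `r : G →* M₂(F)`   (Mathlib only)

* `noLine_of_transvection` : no `G`-stable line over `F`, `u` with `r u ≠ 1`, `(r u - 1)² = 0`, all conjugates of `u` in `H`
  `⟹` no `H`-stable line over any extension field `Ω`.
* `noLine_of_index_two` : the same for every subgroup `H` of index `2` (`2 ≠ 0` in `F`).
* `det_eq_of_quad` : `r σ ^ 2 - P σ • r σ + χ σ • 1 = 0` for all `σ`, `χ` multiplicative and non zero, one non scalar `r u`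
  `⟹ det (r σ) = χ σ`, and `trace (r σ) = P σ` when ... (see `trace_eq_of_quad`).
-/

set_option autoImplicit false

namespace Fermat.Agent.TW.ESide

open Matrix

section Cross

variable {F : Type*} [Field F]

/-- the determinant of two vectors of `F²` -/
def cross (x y : Fin 2 → F) : F := x 0 * y 1 - x 1 * y 0

lemma exists_smul_of_cross_eq_zero {x y : Fin 2 → F} (hy : y ≠ 0) (h : cross x y = 0) :
    ∃ c : F, x = c • y := by
  unfold cross at h
  by_cases h0 : y 0 = 0
  · have h1 : y 1 ≠ 0 := by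
      intro h1; apply hy; funext i; fin_cases i <;> simp [h0, h1]
    refine ⟨x 1 / y 1, ?_⟩
    funext i
    fin_cases i
    · simp only [Fin.zero_eta, Pi.smul_apply, smul_eq_mul, h0, mul_zero]
      rw [h0, mul_zero, sub_zero] at h
      exact (mul_eq_zero.1 h).resolve_right h1
    · simp only [Fin.mk_one, Pi.smul_apply, smul_eq_mul]
      field_simp
  · refine ⟨x 0 / y 0, ?_⟩
    funext i
    fin_cases i
    · simp only [Fin.zero_eta, Pi.smul_apply, smul_eq_mul]
      field_simp
    · simp only [Fin.mk_one, Pi.smul_apply, smul_eq_mul]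
      field_simp
      linear_combination -h

lemma cross_smul_left (c : F) (x y : Fin 2 → F) : cross (c • x) y = c * cross x y := by
  simp only [cross, Pi.smul_apply, smul_eq_mul]; ring

/-- two vectors killed by a nonzero matrix are proportional. -/
lemma cross_eq_zero_of_mulVec_eq_zero {N : Matrix (Fin 2) (Fin 2) F} (hN : N ≠ 0)
    {x y : Fin 2 → F} (hx : N.mulVec x = 0) (hy : N.mulVec y = 0) : cross x y = 0 := by
  by_contra hc
  apply hN
  have hx' : ∀ i, N i 0 * x 0 + N i 1 * x 1 = 0 := fun i => by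
    have := congrFun hx i
    simpa [Matrix.mulVec, dotProduct, Fin.sum_univ_two] using this
  have hy' : ∀ i, N i 0 * y 0 + N i 1 * y 1 = 0 := fun i => by
    have := congrFun hy i
    simpa [Matrix.mulVec, dotProduct, Fin.sum_univ_two] using this
  ext i j
  unfold cross at hc
  fin_cases j
  · have : N i 0 * (x 0 * y 1 - x 1 * y 0) = 0 := by
      linear_combination y 1 * hx' i - x 1 * hy' i
    simpa using (mul_eq_zero.1 this).resolve_right hc
  · have : N i 1 * (x 0 * y 1 - x 1 * y 0) = 0 := by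
      linear_combination x 0 * hy' i - y 0 * hx' i
    simpa using (mul_eq_zero.1 this).resolve_right hc

end Cross

section Big

variable {F Ω : Type*} [Field F] [Field Ω] (ι : F →+* Ω) {G : Type*} [Group G]

lemma cross_map (x y : Fin 2 → F) : cross (ι ∘ x) (ι ∘ y) = ι (cross x y) := by
  simp [cross]

lemma map_mulVec_comp (M : Matrix (Fin 2) (Fin 2) F) (x : Fin 2 → F) :
    (M.map ι).mulVec (ι ∘ x) = ι ∘ (M.mulVec x) := by
  funext i
  simp only [Matrix.mulVec, dotProduct, Fin.sum_univ_two, Matrix.map_apply, Function.comp,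
    map_add, map_mul]

/-- **[BIG]** -/
theorem noLine_of_transvection (r : G →* Matrix (Fin 2) (Fin 2) F)
    (hirr : ∀ v : Fin 2 → F, v ≠ 0 → ∃ σ : G, ∀ c : F, (r σ).mulVec v ≠ c • v)
    (H : Subgroup G) (u : G) (hu1 : r u ≠ 1) (hu2 : (r u - 1) * (r u - 1) = 0)
    (hH : ∀ g : G, g * u * g⁻¹ ∈ H) (w : Fin 2 → Ω) (hw : w ≠ 0) :
    ∃ σ ∈ H, ∀ c : Ω, ((r σ).map ι).mulVec w ≠ c • w := by
  by_contra hcon
  push Not at hcon
  set N := r u - 1 with hN
  have hN0 : N ≠ 0 := sub_ne_zero.2 hu1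
  have hNΩ0 : N.map ι ≠ 0 := by
    intro h
    apply hN0
    ext i j
    have := congrFun (congrFun h i) j
    simpa using this
  have hmapmul : ∀ A B : Matrix (Fin 2) (Fin 2) F, (A * B).map ι = A.map ι * B.map ι :=
    fun A B => Matrix.map_mul
  have hinv : ∀ g : G, r g * r g⁻¹ = 1 := fun g => by rw [← map_mul, mul_inv_cancel, map_one]
  have hinv' : ∀ g : G, r g⁻¹ * r g = 1 := fun g => by rw [← map_mul, inv_mul_cancel, map_one]
  -- `N (r g⁻¹ w) = 0` for all `g`
  have key : ∀ g : G, (N.map ι).mulVec (((r g⁻¹).map ι).mulVec w) = 0 := by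
    intro g
    obtain ⟨c, hc⟩ := hcon (g * u * g⁻¹) (hH g)
    have e1 : r (g * u * g⁻¹) = 1 + r g * N * r g⁻¹ := by
      rw [map_mul, map_mul, hN, mul_sub, sub_mul, mul_one, hinv]; abel
    set Ng := r g * N * r g⁻¹ with hNg
    have hNg2 : Ng * Ng = 0 := by
      rw [hNg]
      calc r g * N * r g⁻¹ * (r g * N * r g⁻¹) = r g * (N * (r g⁻¹ * r g) * N) * r g⁻¹ := by
            simp only [mul_assoc]
        _ = 0 := by rw [hinv', mul_one, hu2, mul_zero, zero_mul]
    have e2 : (Ng.map ι).mulVec w = (c - 1) • w := by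
      rw [e1] at hc
      have : ((1 + Ng).map ι) = 1 + Ng.map ι := by
        rw [Matrix.map_add _ (by simp), Matrix.map_one _ (map_zero _) (map_one _)]
      rw [this, Matrix.add_mulVec, Matrix.one_mulVec] at hc
      rw [sub_smul, one_smul, ← hc]; abel
    have e3 : (c - 1) * (c - 1) = 0 := by
      have h1 : ((Ng * Ng).map ι).mulVec w = ((c - 1) * (c - 1)) • w := by
        rw [hmapmul, ← Matrix.mulVec_mulVec, e2, Matrix.mulVec_smul, e2, smul_smul]
      rw [hNg2] at h1
      have h2 : ((c - 1) * (c - 1)) • w = 0 := by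
        rw [← h1]; simp
      exact (smul_eq_zero.1 h2).resolve_right hw
    have e4 : c - 1 = 0 := mul_self_eq_zero.1 e3
    rw [e4, zero_smul] at e2
    -- multiply by `r g⁻¹`
    have e5 : ((r g⁻¹).map ι).mulVec ((Ng.map ι).mulVec w) = 0 := by rw [e2, Matrix.mulVec_zero]
    rw [Matrix.mulVec_mulVec, ← hmapmul, hNg, ← mul_assoc, ← mul_assoc, hinv', one_mul, hmapmul,
      ← Matrix.mulVec_mulVec] at e5
    exact e5
  -- a kernel vector over `F`
  have hdet : N.det = 0 := by
    have : N.det * N.det = 0 := by rw [← Matrix.det_mul, hu2, Matrix.det_zero]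
    exact mul_self_eq_zero.1 this
  obtain ⟨v₀, hv₀, hNv₀⟩ := Matrix.exists_mulVec_eq_zero_iff.2 hdet
  have hNv₀' : (N.map ι).mulVec (ι ∘ v₀) = 0 := by
    rw [map_mulVec_comp, hNv₀]; funext i; simp
  have hcr : ∀ g : G, cross (((r g).map ι).mulVec w) (ι ∘ v₀) = 0 := by
    intro g
    have := key g⁻¹
    rw [inv_inv] at this
    exact cross_eq_zero_of_mulVec_eq_zero hNΩ0 this hNv₀'
  have hw0 : cross (ι ∘ v₀) w = 0 := by
    have := key 1
    rw [inv_one, map_one, Matrix.map_one _ (map_zero _) (map_one _), Matrix.one_mulVec] at this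
    exact cross_eq_zero_of_mulVec_eq_zero hNΩ0 hNv₀' this
  obtain ⟨μ, hμ⟩ := exists_smul_of_cross_eq_zero hw hw0
  obtain ⟨σ, hσ⟩ := hirr v₀ hv₀
  have h1 : cross (ι ∘ ((r σ).mulVec v₀)) (ι ∘ v₀) = 0 := by
    rw [← map_mulVec_comp, hμ, Matrix.mulVec_smul, cross_smul_left]
    have := hcr σ
    rw [hμ] at this
    rw [this, mul_zero]
  rw [cross_map] at h1
  have h2 : cross ((r σ).mulVec v₀) v₀ = 0 := by
    have := (map_eq_zero ι).1 h1
    exact this
  obtain ⟨c, hc⟩ := exists_smul_of_cross_eq_zero hv₀ h2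
  exact hσ c hc

/-- **[BIG]** for subgroups of index `2`. -/
theorem noLine_of_index_two (h2 : (2 : F) ≠ 0) (r : G →* Matrix (Fin 2) (Fin 2) F)
    (hirr : ∀ v : Fin 2 → F, v ≠ 0 → ∃ σ : G, ∀ c : F, (r σ).mulVec v ≠ c • v)
    (u : G) (hu1 : r u ≠ 1) (hu2 : (r u - 1) * (r u - 1) = 0)
    (H : Subgroup G) (hH : H.index = 2) (w : Fin 2 → Ω) (hw : w ≠ 0) :
    ∃ σ ∈ H, ∀ c : Ω, ((r σ).map ι).mulVec w ≠ c • w := by
  have e : r (u * u) - 1 = (2 : F) • (r u - 1) := by
    have h : r u * r u = 2 • r u - 1 := by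
      have : (r u - 1) * (r u - 1) = r u * r u - 2 • r u + 1 := by
        rw [sub_mul, mul_sub, mul_one, one_mul, two_smul]; abel
      rw [this] at hu2
      have h3 := sub_eq_zero.1 (show r u * r u - (2 • r u - 1) = 0 by rw [← hu2]; abel)
      exact h3
    rw [map_mul, h, smul_sub, two_smul, two_smul (M := Matrix (Fin 2) (Fin 2) F) (R := F),
      two_smul (M := Matrix (Fin 2) (Fin 2) F) (R := F)]; abel
  refine noLine_of_transvection ι r hirr H (u * u) ?_ ?_ ?_ w hw
  · intro h
    rw [h, sub_self] at e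
    exact (smul_ne_zero h2 (sub_ne_zero.2 hu1)) e.symm
  · rw [e, smul_mul_smul_comm, hu2, smul_zero]
  · intro g
    have : g * (u * u) * g⁻¹ = (g * u * g⁻¹) * (g * u * g⁻¹) := by group
    rw [this]
    exact Subgroup.mul_self_mem_of_index_two hH _

end Big

section Det

variable {F : Type*} [Field F] {G : Type*} [Group G]

/-- a non scalar `2 × 2` matrix determines its quadratic relation. -/
lemma trace_det_of_quad {M : Matrix (Fin 2) (Fin 2) F} (hM : ∀ c : F, M ≠ c • 1) {P D : F}
    (h : M * M - P • M + D • 1 = 0) : M.trace = P ∧ M.det = D := by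
  have h00 := congrFun (congrFun h 0) 0
  have h01 := congrFun (congrFun h 0) 1
  have h10 := congrFun (congrFun h 1) 0
  have h11 := congrFun (congrFun h 1) 1
  simp only [Matrix.add_apply, Matrix.sub_apply, Matrix.mul_apply, Fin.sum_univ_two,
    Matrix.smul_apply, Matrix.one_apply_eq, Matrix.zero_apply, smul_eq_mul, mul_one] at h00 h11
  simp only [Matrix.add_apply, Matrix.sub_apply, Matrix.mul_apply, Fin.sum_univ_two,
    Matrix.smul_apply, Matrix.zero_apply, smul_eq_mul, ne_eq, zero_ne_one, one_ne_zero,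
    not_false_eq_true, Matrix.one_apply_ne, mul_zero, add_zero] at h01 h10
  have htr : M 0 0 + M 1 1 = P := by
    by_contra hne
    have hne' : M 0 0 + M 1 1 - P ≠ 0 := sub_ne_zero.2 hne
    have b0 : M 0 1 = 0 := by
      have : M 0 1 * (M 0 0 + M 1 1 - P) = 0 := by linear_combination h01
      exact (mul_eq_zero.1 this).resolve_right hne'
    have c0 : M 1 0 = 0 := by
      have : M 1 0 * (M 0 0 + M 1 1 - P) = 0 := by linear_combination h10
      exact (mul_eq_zero.1 this).resolve_right hne'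
    have ad : M 0 0 = M 1 1 := by
      have : (M 0 0 - M 1 1) * (M 0 0 + M 1 1 - P) = 0 := by linear_combination h00 - h11
      exact sub_eq_zero.1 ((mul_eq_zero.1 this).resolve_right hne')
    apply hM (M 0 0)
    ext i j
    fin_cases i <;> fin_cases j <;> simp [b0, c0, ← ad]
  refine ⟨by rw [Matrix.trace_fin_two]; exact htr, ?_⟩
  rw [Matrix.det_fin_two]
  rw [← htr] at h00
  linear_combination -h00

/-- **[DET]** -/
theorem det_eq_of_quad (r : G →* Matrix (Fin 2) (Fin 2) F) (χ : G →* Fˣ)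
    (hq : ∀ σ, ∃ P : F, r σ * r σ - P • r σ + (χ σ : F) • 1 = 0)
    (u : G) (hu : ∀ c : F, r u ≠ c • 1) (σ : G) : (r σ).det = χ σ := by
  by_cases hσ : ∀ c : F, r σ ≠ c • 1
  · obtain ⟨P, hP⟩ := hq σ
    exact (trace_det_of_quad hσ hP).2
  · push Not at hσ
    obtain ⟨c, hc⟩ := hσ
    have hc0 : c ≠ 0 := by
      rintro rfl
      have h1 : r σ * r σ⁻¹ = 1 := by rw [← map_mul, mul_inv_cancel, map_one]
      rw [hc, zero_smul, zero_mul] at h1
      exact zero_ne_one h1
    have hσu : ∀ d : F, r (σ * u) ≠ d • 1 := by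
      intro d hd
      apply hu (c⁻¹ * d)
      rw [map_mul, hc, smul_mul_assoc, one_mul] at hd
      rw [mul_smul, ← hd, smul_smul, inv_mul_cancel₀ hc0, one_smul]
    obtain ⟨P, hP⟩ := hq (σ * u)
    obtain ⟨P', hP'⟩ := hq u
    have h1 := (trace_det_of_quad hσu hP).2
    have h2 := (trace_det_of_quad hu hP').2
    rw [map_mul, Matrix.det_mul, h2, map_mul, Units.val_mul] at h1
    exact mul_right_cancel₀ (χ u).ne_zero h1

/-- **[TR]** -/
theorem trace_eq_of_quad (r : G →* Matrix (Fin 2) (Fin 2) F) (χ : G →* Fˣ)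
    (hq : ∀ σ, ∃ P : F, r σ * r σ - P • r σ + (χ σ : F) • 1 = 0)
    (u : G) (hu : ∀ c : F, r u ≠ c • 1) (σ : G) {P : F}
    (hP : r σ * r σ - P • r σ + (χ σ : F) • 1 = 0) : (r σ).trace = P := by
  by_cases hσ : ∀ c : F, r σ ≠ c • 1
  · exact (trace_det_of_quad hσ hP).1
  · push Not at hσ
    obtain ⟨c, hc⟩ := hσ
    have hdet := det_eq_of_quad r χ hq u hu σ
    have hc0 : c ≠ 0 := by
      rintro rfl
      rw [hc, zero_smul, Matrix.det_zero] at hdet
      exact (χ σ).ne_zero hdet.symm
    rw [← hdet, hc] at hP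
    have h00 := congrFun (congrFun hP 0) 0
    simp at h00
    rw [hc, Matrix.trace_fin_two]
    simp only [Matrix.smul_apply, Matrix.one_apply_eq, smul_eq_mul, mul_one]
    have : c * (c + c - P) = 0 := by linear_combination h00
    have := (mul_eq_zero.1 this).resolve_left hc0
    linear_combination this

end Det

end Fermat.Agent.TW.ESide
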