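import Fermat.Agent.TW.ESide.Big
import Fermat.Agent.RIB.Rho.Mod

/-!
# TW / E-side : Wiles' explicit matrix `rhoMat (tr ∘ r)` is conjugate to `r`   (abstract)
-/

set_option autoImplicit false

namespace Fermat.Agent.TW.ESide

open Matrix Fermat.Agent.TW.TR Fermat.Agent.RIB.Rho

section Units

variable {F : Type*} [Field F]

local notation "M₂" => Matrix (Fin 2) (Fin 2) F

/-- `E X E = tr (E X) E` for a `2 × 2` matrix `E` of determinant `0`. -/
lemma mul_mul_self_of_det_eq_zero {E : M₂} (hE : E.det = 0) (X : M₂) :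
    E * X * E = (E * X).trace • E := by
  rw [Matrix.det_fin_two] at hE
  ext i j
  fin_cases i <;> fin_cases j <;>
    simp only [Matrix.mul_apply, Fin.sum_univ_two, Matrix.trace_fin_two, Matrix.smul_apply,
      smul_eq_mul, Fin.zero_eta, Fin.mk_one]
  · linear_combination (-(X 1 1)) * hE
  · linear_combination (X 0 1) * hE
  · linear_combination (X 1 0) * hE
  · linear_combination (-(X 0 0)) * hE

/-- a system of matrix units in `M₂(F)` is conjugate to the standard one (explicit form). -/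
theorem exists_conj_of_units {E₁ E₂ S T : M₂} {u : F} (hsum : E₁ + E₂ = 1)
    (h12 : E₁ * E₂ = 0) (h21 : E₂ * E₁ = 0) (d1 : E₁.det = 0) (d2 : E₂.det = 0)
    (hu : u * (E₁ * S * E₂ * T).trace = 1) :
    ∃ U V : M₂, U * V = 1 ∧ V * U = 1 ∧ ∀ X : M₂, U * X * V =
      !![(E₁ * X).trace, u * (E₁ * X * E₂ * T).trace; (E₁ * S * E₂ * X).trace, (E₂ * X).trace] := by
  have h11 : E₁ * E₁ = E₁ := by
    have := congrArg (fun M => E₁ * M) hsum
    simpa [mul_add, h12] using this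
  have h22 : E₂ * E₂ = E₂ := by
    have := congrArg (fun M => E₂ * M) hsum
    simpa [mul_add, h21] using this
  have hE1 : E₁ ≠ 0 := by
    rintro rfl
    simp at hu
  set B : M₂ := E₁ * S * E₂ with hB
  set B' : M₂ := u • (E₂ * T * E₁) with hB'
  have hBB' : B * B' = E₁ := by
    rw [hB, hB', mul_smul_comm]
    have : E₁ * S * E₂ * (E₂ * T * E₁) = E₁ * (S * E₂ * T) * E₁ := by
      calc E₁ * S * E₂ * (E₂ * T * E₁) = E₁ * S * (E₂ * E₂) * T * E₁ := by simp only [mul_assoc]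
        _ = E₁ * (S * E₂ * T) * E₁ := by rw [h22]; simp only [mul_assoc]
    rw [this, mul_mul_self_of_det_eq_zero d1, smul_smul]
    have e : E₁ * (S * E₂ * T) = E₁ * S * E₂ * T := by simp only [mul_assoc]
    rw [e, hu, one_smul]
  have hB'B : B' * B = E₂ := by
    rw [hB, hB', smul_mul_assoc]
    have : E₂ * T * E₁ * (E₁ * S * E₂) = E₂ * (T * E₁ * S) * E₂ := by
      calc E₂ * T * E₁ * (E₁ * S * E₂) = E₂ * T * (E₁ * E₁) * S * E₂ := by simp only [mul_assoc]
        _ = E₂ * (T * E₁ * S) * E₂ := by rw [h11]; simp only [mul_assoc]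
    rw [this, mul_mul_self_of_det_eq_zero d2, smul_smul]
    have e : (E₂ * (T * E₁ * S)).trace = (E₁ * S * E₂ * T).trace := by
      rw [show E₂ * (T * E₁ * S) = (E₂ * T) * (E₁ * S) by simp only [mul_assoc],
        Matrix.trace_mul_comm]
      simp only [mul_assoc]
    rw [e, hu, one_smul]
  have hB'E₁ : B' * E₁ = B' := by
    rw [hB', smul_mul_assoc, mul_assoc, h11]
  have hE₂B' : E₂ * B' = B' := by
    rw [hB', mul_smul_comm, ← mul_assoc, ← mul_assoc, h22]
  have hE₁B' : E₁ * B' = 0 := by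
    rw [← hE₂B', ← mul_assoc, h12, zero_mul]
  -- the vectors
  obtain ⟨w₀, hw₀⟩ : ∃ w₀ : Fin 2 → F, E₁.mulVec w₀ ≠ 0 := by
    by_contra hcon
    push Not at hcon
    apply hE1
    ext i j
    have := congrFun (hcon (Pi.single j 1)) i
    simpa using this
  set w₁ := E₁.mulVec w₀ with hw₁
  set w₂ := B'.mulVec w₁ with hw₂
  have hE₁w₁ : E₁.mulVec w₁ = w₁ := by rw [hw₁, Matrix.mulVec_mulVec, h11]
  have hE₁w₂ : E₁.mulVec w₂ = 0 := by rw [hw₂, Matrix.mulVec_mulVec, hE₁B', Matrix.zero_mulVec]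
  have hE₂w₂ : E₂.mulVec w₂ = w₂ := by rw [hw₂, Matrix.mulVec_mulVec, hE₂B']
  have hBw₂ : B.mulVec w₂ = w₁ := by rw [hw₂, Matrix.mulVec_mulVec, hBB', hE₁w₁]
  have hw₂0 : w₂ ≠ 0 := by
    intro h
    rw [h, Matrix.mulVec_zero] at hBw₂
    exact hw₀ hBw₂.symm
  have hcross : cross w₁ w₂ ≠ 0 := by
    intro h
    obtain ⟨c, hc⟩ := exists_smul_of_cross_eq_zero hw₂0 h
    have := congrArg E₁.mulVec hc
    rw [hE₁w₁, Matrix.mulVec_smul, hE₁w₂, smul_zero] at this
    exact hw₀ this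
  -- action on the two vectors
  have act1 : ∀ X : M₂, X.mulVec w₁ = (E₁ * X).trace • w₁ + (E₁ * S * E₂ * X).trace • w₂ := by
    intro X
    have e1 : (E₁ * X * E₁).mulVec w₁ = (E₁ * X).trace • w₁ := by
      rw [mul_mul_self_of_det_eq_zero d1, Matrix.smul_mulVec, hE₁w₁]
    have e2 : (E₂ * X * E₁).mulVec w₁ = (E₁ * S * E₂ * X).trace • w₂ := by
      have : E₂ * X * E₁ = (E₁ * S * E₂ * X).trace • B' := by
        calc E₂ * X * E₁ = (B' * B) * X * E₁ := by rw [hB'B]
          _ = B' * (E₁ * (S * E₂ * X) * E₁) := by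
              rw [hB]; simp only [mul_assoc]
          _ = (E₁ * S * E₂ * X).trace • B' := by
              rw [mul_mul_self_of_det_eq_zero d1, mul_smul_comm, hB'E₁]
              simp only [mul_assoc]
      rw [this, Matrix.smul_mulVec]
    calc X.mulVec w₁ = ((E₁ + E₂) * X * E₁).mulVec w₁ := by
          rw [hsum, one_mul, ← Matrix.mulVec_mulVec, hE₁w₁]
      _ = _ := by rw [add_mul, add_mul, Matrix.add_mulVec, e1, e2]
  have act2 : ∀ X : M₂, X.mulVec w₂ = (u * (E₁ * X * E₂ * T).trace) • w₁ + (E₂ * X).trace • w₂ := by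
    intro X
    have e1 : (E₁ * X * B').mulVec w₁ = (u * (E₁ * X * E₂ * T).trace) • w₁ := by
      have : E₁ * X * B' = (u * (E₁ * X * E₂ * T).trace) • E₁ := by
        calc E₁ * X * B' = u • (E₁ * (X * E₂ * T) * E₁) := by
              rw [hB', mul_smul_comm]; simp only [mul_assoc]
          _ = _ := by
              rw [mul_mul_self_of_det_eq_zero d1, smul_smul]
              simp only [mul_assoc]
      rw [this, Matrix.smul_mulVec, hE₁w₁]
    have e2 : (E₂ * X * E₂).mulVec w₂ = (E₂ * X).trace • w₂ := by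
      rw [mul_mul_self_of_det_eq_zero d2, Matrix.smul_mulVec, hE₂w₂]
    calc X.mulVec w₂ = (E₁ * X).mulVec w₂ + (E₂ * X).mulVec w₂ := by
          rw [← Matrix.add_mulVec, ← add_mul, hsum, one_mul]
      _ = (E₁ * X * B').mulVec w₁ + (E₂ * X * E₂).mulVec w₂ := by
          have f1 : (E₁ * X * B').mulVec w₁ = (E₁ * X).mulVec w₂ := by
            rw [hw₂, Matrix.mulVec_mulVec w₁ (E₁ * X) B']
          have f2 : (E₂ * X * E₂).mulVec w₂ = (E₂ * X).mulVec w₂ := by
            rw [← Matrix.mulVec_mulVec, hE₂w₂]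
          rw [f1, f2]
      _ = _ := by rw [e1, e2]
  -- the matrix
  set V : M₂ := !![w₁ 0, w₂ 0; w₁ 1, w₂ 1] with hV
  have hdetV : V.det = cross w₁ w₂ := by
    rw [hV, Matrix.det_fin_two_of, cross]; ring
  have hunit : IsUnit V.det := by rw [hdetV]; exact isUnit_iff_ne_zero.2 hcross
  refine ⟨V⁻¹, V, Matrix.nonsing_inv_mul V hunit, Matrix.mul_nonsing_inv V hunit, fun X => ?_⟩
  have key : X * V = V *
      !![(E₁ * X).trace, u * (E₁ * X * E₂ * T).trace; (E₁ * S * E₂ * X).trace, (E₂ * X).trace] := by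
    ext i j
    have a1 := congrFun (act1 X) i
    have a2 := congrFun (act2 X) i
    simp only [Matrix.mulVec, dotProduct, Fin.sum_univ_two, Pi.add_apply, Pi.smul_apply,
      smul_eq_mul] at a1 a2
    fin_cases j
    · fin_cases i <;> simp [hV, Matrix.mul_apply, Fin.sum_univ_two] at a1 ⊢ <;>
        linear_combination a1
    · fin_cases i <;> simp [hV, Matrix.mul_apply, Fin.sum_univ_two] at a2 ⊢ <;>
        linear_combination a2
  rw [mul_assoc, key, ← mul_assoc, Matrix.nonsing_inv_mul V hunit, one_mul]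

lemma cayley_hamilton_two (M : M₂) : M * M = M.trace • M - M.det • 1 := by
  ext i j
  fin_cases i <;> fin_cases j <;>
    simp [Matrix.mul_apply, Fin.sum_univ_two, Matrix.trace_fin_two, Matrix.det_fin_two] <;> ring

lemma det_one_add (M : M₂) : (1 + M).det = 1 + M.trace + M.det := by
  simp [Matrix.trace_fin_two, Matrix.det_fin_two]; ring

lemma det_one_sub (M : M₂) : (1 - M).det = 1 - M.trace + M.det := by
  simp [Matrix.trace_fin_two, Matrix.det_fin_two]; ring

lemma trace_mul_trace (A B : M₂) : A.trace * B.trace = (A * B).trace + (A * B.adjugate).trace := by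
  simp [Matrix.mul_apply, Fin.sum_univ_two, Matrix.trace_fin_two, Matrix.adjugate_fin_two]; ring

end Units

section Rep

variable {F : Type*} [Field F] {G : Type*} [Group G]

local notation "M₂" => Matrix (Fin 2) (Fin 2) F

/-- the trace of a two-dimensional representation is a pseudo-character. -/
theorem isPseudo_trace (r : G →* M₂) (c : G →* F) (hdet : ∀ g, (r g).det = c g) :
    IsPseudo (fun g => (r g).trace) c where
  one := by simp
  mul σ τ := by
    have h1 : (r τ).adjugate = c τ • r τ⁻¹ := by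
      have e : r τ * r τ⁻¹ = 1 := by rw [← map_mul, mul_inv_cancel, map_one]
      calc (r τ).adjugate = (r τ).adjugate * (r τ * r τ⁻¹) := by rw [e, mul_one]
        _ = c τ • r τ⁻¹ := by
            rw [← mul_assoc, Matrix.adjugate_mul, hdet, smul_mul_assoc, one_mul]
    show (r σ).trace * (r τ).trace = (r (σ * τ)).trace + c τ * (r (σ * τ⁻¹)).trace
    rw [trace_mul_trace, h1, mul_smul_comm, Matrix.trace_smul, map_mul, map_mul, smul_eq_mul]
  comm σ τ := by
    show (r (σ * τ)).trace = (r (τ * σ)).trace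
    rw [map_mul, map_mul, Matrix.trace_mul_comm]

/-- the idempotents attached to an involution of determinant `-1`. -/
theorem exists_idem (r : G →* M₂) {i2 : F} (h2 : i2 * 2 = 1) {c₀ : G}
    (hc₀ : c₀ * c₀ = 1) (hdet : (r c₀).det = -1) :
    ∃ E₁ E₂ : M₂, E₁ + E₂ = 1 ∧ E₁ * E₂ = 0 ∧ E₂ * E₁ = 0 ∧ E₁.det = 0 ∧ E₂.det = 0 ∧
      (∀ g, aF (fun g => (r g).trace) i2 c₀ g = (E₁ * r g).trace) ∧
      (∀ g, dF (fun g => (r g).trace) i2 c₀ g = (E₂ * r g).trace) ∧
      (∀ g g', xF (fun g => (r g).trace) i2 c₀ g g' = (E₁ * r g * E₂ * r g').trace) := by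
  obtain ⟨C, hC⟩ : ∃ C, C = r c₀ := ⟨_, rfl⟩
  have hCC : C * C = 1 := by rw [hC, ← map_mul, hc₀, map_one]
  have hCdet : C.det = -1 := by rw [hC]; exact hdet
  have hCtr : C.trace = 0 := by
    have h := cayley_hamilton_two C
    rw [hCC, hCdet] at h
    have h3 : C.trace • C = 0 := by
      have h5 : C.trace • C - (-1 : F) • (1 : M₂) = C.trace • C + 1 := by
        rw [neg_smul, one_smul, sub_neg_eq_add]
      rw [h5] at h
      exact (left_eq_add.1 (by rw [add_comm]; exact h))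
    rcases smul_eq_zero.1 h3 with h4 | h4
    · exact h4
    · rw [h4, zero_mul] at hCC
      exact absurd hCC zero_ne_one
  refine ⟨i2 • (1 + C), i2 • (1 - C), ?_, ?_, ?_, ?_, ?_, ?_, ?_, ?_⟩
  · rw [← smul_add]
    have : (1 + C) + (1 - C) = (2 : F) • (1 : M₂) := by rw [two_smul]; abel
    rw [this, smul_smul, h2, one_smul]
  · rw [smul_mul_smul_comm]
    have : (1 + C) * (1 - C) = 1 - C * C := by noncomm_ring
    rw [this, hCC, sub_self, smul_zero]
  · rw [smul_mul_smul_comm]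
    have : (1 - C) * (1 + C) = 1 - C * C := by noncomm_ring
    rw [this, hCC, sub_self, smul_zero]
  · rw [Matrix.det_smul, det_one_add, hCtr, hCdet]; simp
  · rw [Matrix.det_smul, det_one_sub, hCtr, hCdet]; simp
  · intro g
    rw [aF_eq, smul_mul_assoc, Matrix.trace_smul, add_mul, one_mul, Matrix.trace_add, hC,
      ← map_mul, smul_eq_mul]
  · intro g
    rw [dF_eq, smul_mul_assoc, Matrix.trace_smul, sub_mul, one_mul, Matrix.trace_sub, hC,
      ← map_mul, smul_eq_mul]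
  · intro g g'
    have e : i2 • (1 + C) * r g * (i2 • (1 - C)) * r g' = (i2 * i2) • (r (g * g') + r (c₀ * g * g')
        - r (g * c₀ * g') - r (c₀ * g * c₀ * g')) := by
      simp only [map_mul, smul_mul_assoc, mul_smul_comm, smul_smul, ← hC]
      congr 1
      noncomm_ring
    rw [e, xF_eq, Matrix.trace_smul, Matrix.trace_sub, Matrix.trace_sub, Matrix.trace_add,
      smul_eq_mul]

/-- **[CONJ]** Wiles' explicit matrix attached to the trace of `r` is conjugate to `r`. -/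
theorem exists_conj_rhoMat (r : G →* M₂) {i2 : F} (h2 : i2 * 2 = 1) {c₀ σ₀ τ₀ : G}
    (hc₀ : c₀ * c₀ = 1) (hdet : (r c₀).det = -1) {u : F}
    (hu : u * xF (fun g => (r g).trace) i2 c₀ σ₀ τ₀ = 1) :
    ∃ U V : M₂, U * V = 1 ∧ V * U = 1 ∧
      ∀ g, rhoMat (fun g => (r g).trace) i2 c₀ σ₀ τ₀ u g = U * r g * V := by
  obtain ⟨E₁, E₂, hsum, h12, h21, d1, d2, ha, hd, hx⟩ := exists_idem r h2 hc₀ hdet
  rw [hx] at hu
  obtain ⟨U, V, hUV, hVU, h⟩ := exists_conj_of_units hsum h12 h21 d1 d2 hu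
  refine ⟨U, V, hUV, hVU, fun g => ?_⟩
  rw [h, rhoMat, ha, hd, hx, hx]

/-- **[UNIT]** an irreducible `r` has a non zero value of Wiles' function `x`. -/
theorem exists_xF_ne_zero (r : G →* M₂) {i2 : F} (h2 : i2 * 2 = 1) {c₀ : G}
    (hc₀ : c₀ * c₀ = 1) (hdet : (r c₀).det = -1)
    (hirr : ∀ v : Fin 2 → F, v ≠ 0 → ∃ σ : G, ∀ c : F, (r σ).mulVec v ≠ c • v) :
    ∃ σ₀ τ₀ : G, xF (fun g => (r g).trace) i2 c₀ σ₀ τ₀ ≠ 0 := by
  obtain ⟨E₁, E₂, hsum, h12, h21, d1, d2, -, -, hx⟩ := exists_idem r h2 hc₀ hdet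
  by_contra hcon
  push Not at hcon
  have h11 : E₁ * E₁ = E₁ := by
    have := congrArg (fun M => E₁ * M) hsum
    simpa [mul_add, h12] using this
  have h22 : E₂ * E₂ = E₂ := by
    have := congrArg (fun M => E₂ * M) hsum
    simpa [mul_add, h21] using this
  have hE1 : E₁ ≠ 0 := by
    rintro rfl
    rw [zero_add] at hsum
    rw [hsum, Matrix.det_one] at d2
    exact one_ne_zero d2
  have hvec : ∀ M : M₂, M ≠ 0 → ∃ w₀ : Fin 2 → F, M.mulVec w₀ ≠ 0 := by
    intro M hM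
    by_contra hc
    push Not at hc
    apply hM
    ext i j
    have := congrFun (hc (Pi.single j 1)) i
    simpa using this
  have hprod : ∀ σ τ, (E₁ * r σ * E₂) * (E₂ * r τ * E₁) = 0 := by
    intro σ τ
    calc (E₁ * r σ * E₂) * (E₂ * r τ * E₁) = E₁ * (r σ * (E₂ * E₂) * r τ) * E₁ := by
          simp only [mul_assoc]
      _ = 0 := by
          rw [h22, mul_mul_self_of_det_eq_zero d1]
          have : E₁ * (r σ * E₂ * r τ) = E₁ * r σ * E₂ * r τ := by simp only [mul_assoc]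
          rw [this, ← hx, hcon, zero_smul]
  by_cases hA : ∀ τ, E₂ * r τ * E₁ = 0
  · obtain ⟨w₀, hw₀⟩ := hvec E₁ hE1
    obtain ⟨σ, hσ⟩ := hirr _ hw₀
    apply hσ (E₁ * r σ).trace
    have e1 : E₁.mulVec (E₁.mulVec w₀) = E₁.mulVec w₀ := by rw [Matrix.mulVec_mulVec, h11]
    calc (r σ).mulVec (E₁.mulVec w₀) = ((E₁ + E₂) * r σ * E₁).mulVec (E₁.mulVec w₀) := by
          rw [hsum, one_mul, ← Matrix.mulVec_mulVec, e1]
      _ = (E₁ * r σ * E₁).mulVec (E₁.mulVec w₀) := by
          rw [add_mul, add_mul, hA σ, add_zero]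
      _ = _ := by rw [mul_mul_self_of_det_eq_zero d1, Matrix.smul_mulVec, e1]
  · push Not at hA
    obtain ⟨τ₁, hτ₁⟩ := hA
    obtain ⟨w₀, hw₀⟩ := hvec _ hτ₁
    obtain ⟨σ, hσ⟩ := hirr _ hw₀
    apply hσ (E₂ * r σ).trace
    obtain ⟨w₂, hw₂⟩ : ∃ w₂, w₂ = (E₂ * r τ₁ * E₁).mulVec w₀ := ⟨_, rfl⟩
    rw [← hw₂]
    have e2 : E₂.mulVec w₂ = w₂ := by
      rw [hw₂, Matrix.mulVec_mulVec, ← mul_assoc, ← mul_assoc, h22]
    have e3 : (E₁ * r σ * E₂).mulVec w₂ = 0 := by
      rw [hw₂, Matrix.mulVec_mulVec, hprod, Matrix.zero_mulVec]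
    calc (r σ).mulVec w₂ = ((E₁ + E₂) * r σ * E₂).mulVec w₂ := by
          rw [hsum, one_mul, ← Matrix.mulVec_mulVec, e2]
      _ = (E₂ * r σ * E₂).mulVec w₂ := by
          rw [add_mul, add_mul, Matrix.add_mulVec, e3, zero_add]
      _ = _ := by rw [mul_mul_self_of_det_eq_zero d2, Matrix.smul_mulVec, e2]

end Rep

end Fermat.Agent.TW.ESide
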