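import Fermat.Agent.TW.ESide.Rbar
import Fermat.Agent.TW.ESide.Conj
import Fermat.Agent.GAL.PC.CycloPow
import Fermat.Agent.TW.TR.Adic

/-!
# TW / E-side : the mod `p` representation of the Frey curve in Wiles' normal form

`rbarN D g = RIB.Rho.rhoMat tbar i2 complexConjugation σ₀ τ₀ u g`, `tbar = tr (E[p])`.  It is conjugate to `rbar0 P`; all the
statements of `Rbar.lean` are transported.
-/

set_option autoImplicit false

namespace Fermat.Agent.TW.ESide

open Fermat.Agent.S05 Fermat.Agent.S13 Fermat.Agent.GAL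
open Fermat.Agent.TW.TR Fermat.Agent.RIB.Rho
open Polynomial

variable (P : FreyPackage)

/-- the trace of `E[p]` -/
noncomputable def tbar (g : Gl) : ZMod P.p := (rbar0 P g).trace

/-- `1/2` -/
noncomputable def i2 : ZMod P.p := (2 : ZMod P.p)⁻¹

lemma two_ne_zero_zmod : (2 : ZMod P.p) ≠ 0 := by
  intro h
  have h3 : ((2 : ℕ) : ZMod P.p) = 0 := by exact_mod_cast h
  rw [ZMod.natCast_eq_zero_iff] at h3
  have := Nat.le_of_dvd (by norm_num) h3
  have := P.hp5
  omega

lemma i2_mul_two : i2 P * 2 = 1 := inv_mul_cancel₀ (two_ne_zero_zmod P)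

/-- the mod `p` cyclotomic character with values in the monoid `𝔽_p` -/
noncomputable def chi0 : Gl →* ZMod P.p := (Units.coeHom (ZMod P.p)).comp (cycloChar P.p)

lemma chi0_apply (g : Gl) : chi0 P g = ((cycloChar P.p g : (ZMod P.p)ˣ) : ZMod P.p) := rfl

lemma chi0_conj : chi0 P complexConjugation = -1 :=
  Fermat.Agent.GAL.PC.cycloChar_complexConjugation P.p

theorem isPseudo_tbar : IsPseudo (tbar P) (chi0 P) :=
  isPseudo_trace (rbar0 P) (chi0 P) (rbar0_det P)

lemma rbar0_det_conj : (rbar0 P complexConjugation).det = -1 := by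
  rw [rbar0_det]; exact chi0_conj P

/-- the choices in Wiles' normal form (`c₀` = complex conjugation). -/
structure NormData where
  σ₀ : Gl
  τ₀ : Gl
  u : ZMod P.p
  hu : u * xF (tbar P) (i2 P) complexConjugation σ₀ τ₀ = 1

theorem exists_normData (hirr : WeierstrassCurve.Affine.Point.GaloisRepIsIrreducible (K := Kb) ℚ
    P.freyCurve P.p) : Nonempty (NormData P) := by
  obtain ⟨σ₀, τ₀, h⟩ := exists_xF_ne_zero (rbar0 P) (i2_mul_two P) complexConjugation_mul_self
    (rbar0_det_conj P) (rbar0_noLine P hirr)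
  exact ⟨⟨σ₀, τ₀, _, inv_mul_cancel₀ h⟩⟩

variable {P}

/-- **[CONJ]** -/
theorem NormData.conj (D : NormData P) : ∃ U V : Matrix (Fin 2) (Fin 2) (ZMod P.p),
    U * V = 1 ∧ V * U = 1 ∧ ∀ g, rhoMat (tbar P) (i2 P) complexConjugation D.σ₀ D.τ₀ D.u g
      = U * rbar0 P g * V :=
  exists_conj_rhoMat (rbar0 P) (i2_mul_two P) complexConjugation_mul_self (rbar0_det_conj P) D.hu

/-- **the mod `p` representation of the Frey curve in Wiles' normal form, over `𝔽_p`.** -/
noncomputable def rbarN (D : NormData P) : Gl →* Matrix (Fin 2) (Fin 2) (ZMod P.p) where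
  toFun g := rhoMat (tbar P) (i2 P) complexConjugation D.σ₀ D.τ₀ D.u g
  map_one' := by
    obtain ⟨U, V, hUV, -, h⟩ := D.conj
    rw [h, map_one, mul_one, hUV]
  map_mul' g g' := by
    obtain ⟨U, V, -, hVU, h⟩ := D.conj
    rw [h, h, h, map_mul]
    calc U * (rbar0 P g * rbar0 P g') * V = U * rbar0 P g * 1 * rbar0 P g' * V := by
          simp only [mul_assoc, one_mul]
      _ = _ := by rw [← hVU]; simp only [mul_assoc]

lemma rbarN_apply (D : NormData P) (g : Gl) :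
    rbarN D g = rhoMat (tbar P) (i2 P) complexConjugation D.σ₀ D.τ₀ D.u g := rfl

theorem rbarN_conj (D : NormData P) : ∃ U V : Matrix (Fin 2) (Fin 2) (ZMod P.p),
    U * V = 1 ∧ V * U = 1 ∧ ∀ g, rbarN D g = U * rbar0 P g * V := D.conj

lemma rbarN_trace (D : NormData P) (g : Gl) : (rbarN D g).trace = (rbar0 P g).trace := by
  obtain ⟨U, V, -, hVU, h⟩ := rbarN_conj D
  rw [h, Matrix.trace_mul_comm, ← mul_assoc, hVU, one_mul]

lemma rbarN_det' (D : NormData P) (g : Gl) : (rbarN D g).det = (rbar0 P g).det := by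
  obtain ⟨U, V, hUV, -, h⟩ := rbarN_conj D
  have h1 : U.det * V.det = 1 := by rw [← Matrix.det_mul, hUV, Matrix.det_one]
  rw [h, Matrix.det_mul, Matrix.det_mul]
  linear_combination (rbar0 P g).det * h1

lemma rbarN_eq_one_iff (D : NormData P) (g : Gl) : rbarN D g = 1 ↔ rbar0 P g = 1 := by
  obtain ⟨U, V, hUV, hVU, h⟩ := rbarN_conj D
  rw [h]
  constructor
  · intro h1
    calc rbar0 P g = (V * U) * rbar0 P g * (V * U) := by rw [hVU, one_mul, mul_one]
      _ = V * (U * rbar0 P g * V) * U := by simp only [mul_assoc]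
      _ = 1 := by rw [h1, mul_one, hVU]
  · intro h1
    rw [h1, mul_one, hUV]

theorem rbarN_det (D : NormData P) (g : Gl) :
    (rbarN D g).det = ((cycloChar P.p g : (ZMod P.p)ˣ) : ZMod P.p) := by
  rw [rbarN_det', rbar0_det]

theorem rbarN_noLine (D : NormData P)
    (hirr : WeierstrassCurve.Affine.Point.GaloisRepIsIrreducible (K := Kb) ℚ P.freyCurve P.p)
    (v : Fin 2 → ZMod P.p) (hv : v ≠ 0) :
    ∃ σ : Gl, ∀ c : ZMod P.p, (rbarN D σ).mulVec v ≠ c • v := by
  obtain ⟨U, V, hUV, hVU, h⟩ := rbarN_conj D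
  have hVv : V.mulVec v ≠ 0 := by
    intro h0
    apply hv
    have := congrArg U.mulVec h0
    rwa [Matrix.mulVec_mulVec, hUV, Matrix.one_mulVec, Matrix.mulVec_zero] at this
  obtain ⟨σ, hσ⟩ := rbar0_noLine P hirr _ hVv
  refine ⟨σ, fun c hc => hσ c ?_⟩
  have := congrArg V.mulVec hc
  rw [h, Matrix.mulVec_mulVec, ← mul_assoc, ← mul_assoc, hVU, one_mul, Matrix.mulVec_smul,
    ← Matrix.mulVec_mulVec] at this
  exact this

theorem rbarN_unip_two (D : NormData P) (A : ValuationSubring Kb) (hA : A.LiesOverPrime 2)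
    {σ τ : Gl} (hσ : σ ∈ A.inertiaSubgroupIn ℚ) (hτ : τ ∈ A.inertiaSubgroupIn ℚ) :
    (rbarN D τ - 1) * (rbarN D σ - 1) = 0 := by
  obtain ⟨U, V, hUV, hVU, h⟩ := rbarN_conj D
  have e : ∀ g, rbarN D g - 1 = U * (rbar0 P g - 1) * V := by
    intro g
    rw [h, mul_sub, sub_mul, mul_one, hUV]
  rw [e, e]
  calc U * (rbar0 P τ - 1) * V * (U * (rbar0 P σ - 1) * V)
      = U * ((rbar0 P τ - 1) * (V * U) * (rbar0 P σ - 1)) * V := by simp only [mul_assoc]
    _ = 0 := by rw [hVU, mul_one, rbar0_unip_two P A hA hσ hτ, mul_zero, zero_mul]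

theorem rbarN_ram_two (D : NormData P) (A : ValuationSubring Kb) (hA : A.LiesOverPrime 2) :
    ∃ u ∈ A.inertiaSubgroupIn ℚ, rbarN D u ≠ 1 := by
  obtain ⟨u, hu, h⟩ := rbar0_ram_two P A hA
  exact ⟨u, hu, fun h' => h ((rbarN_eq_one_iff D u).1 h')⟩

theorem rbarN_exists_transvection (D : NormData P) :
    ∃ u : Gl, rbarN D u ≠ 1 ∧ (rbarN D u - 1) * (rbarN D u - 1) = 0 := by
  obtain ⟨A, hA⟩ := Fermat.Agent.S54.exists_liesOverPrime Nat.prime_two
  obtain ⟨u, hu, h1⟩ := rbarN_ram_two D A hA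
  exact ⟨u, h1, rbarN_unip_two D A hA hu hu⟩

theorem rbarN_unram (D : NormData P) {q : ℕ} (hq : q.Prime) (hq2 : q ≠ 2) (hqp : q ≠ P.p)
    (A : ValuationSubring Kb) (hA : A.LiesOverPrime q) {σ : Gl} (hσ : σ ∈ A.inertiaSubgroupIn ℚ) :
    rbarN D σ = 1 :=
  (rbarN_eq_one_iff D σ).2 (rbar0_unram P hq hq2 hqp A hA hσ)

theorem rbarN_frob (D : NormData P) {ℓ : ℕ} (hℓ : ℓ.Prime)
    (hgood : ¬ (ℓ : ℤ) ∣ P.a * P.b * P.c) (hpℓ : P.p ≠ ℓ)
    (A : ValuationSubring Kb) (hA : A.LiesOverPrime ℓ) (τ : Gl) (hτ : A.IsFrobeniusAt τ ℓ) :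
    (rbarN D τ).trace = (P.freyCurveInt.apOfModel ℓ : ZMod P.p) ∧
      (rbarN D τ).det = (ℓ : ZMod P.p) := by
  rw [rbarN_trace, rbarN_det']
  exact rbar0_frob P hℓ hgood hpℓ A hA τ hτ

/-- `rbarN D complexConjugation = diag (1, -1)` -/
theorem rbarN_conjugation (D : NormData P) : rbarN D complexConjugation = !![1, 0; 0, -1] := by
  have hps := isPseudo_tbar P
  have h2 := i2_mul_two P
  have hc := complexConjugation_mul_self
  have hcc := chi0_conj P
  rw [rbarN_apply, rhoMat, aF_c₀ hps h2 hc hcc, dF_c₀ hps h2 hc hcc, xF_c₀_right hps hc,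
    xF_c₀_left hc, mul_zero]

section K

variable (D : NormData P) (k : Type) [Field k] [CharP k P.p]

/-- **the mod `p` representation of the Frey curve in normal form, coefficients in `k`.** -/
noncomputable def freyRbarN : S56.GQ →* S56.M2 k :=
  ((castK P k).mapMatrix.toMonoidHom).comp (rbarN D)

lemma freyRbarN_apply (σ : Gl) : freyRbarN D k σ = (rbarN D σ).map (castK P k) := rfl

/-- the normal form over `k` is given by the same formulas. -/
lemma freyRbarN_eq_rhoMat (σ : Gl) : freyRbarN D k σ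
    = rhoMat (fun g => castK P k (tbar P g)) (castK P k (i2 P)) complexConjugation D.σ₀ D.τ₀
        (castK P k D.u) σ := by
  rw [freyRbarN_apply, rbarN_apply, rhoMat_map]

lemma freyRbarN_eq_one_iff (σ : Gl) : freyRbarN D k σ = 1 ↔ rbarN D σ = 1 := by
  rw [freyRbarN_apply]
  constructor
  · intro h
    ext i j
    have := congrFun (congrFun h i) j
    rw [Matrix.map_apply] at this
    apply (castK P k).injective
    rw [this]
    by_cases hij : i = j
    · subst hij; simp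
    · simp [hij]
  · intro h
    rw [h, Matrix.map_one _ (map_zero _) (map_one _)]

/-- `freyRbarN D k σ = 1` iff `σ` acts trivially on `E[p]`. -/
lemma freyRbarN_eq_one_iff' (σ : Gl) : freyRbarN D k σ = 1 ↔ ∀ x : Tors P, σ • x = x := by
  rw [freyRbarN_eq_one_iff, rbarN_eq_one_iff, rbar0_eq_one_iff]

lemma freyRbarN_trace (σ : Gl) : (freyRbarN D k σ).trace = castK P k (tbar P σ) := by
  rw [freyRbarN_apply, Matrix.trace_fin_two, tbar, ← rbarN_trace D, Matrix.trace_fin_two, map_add]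
  rfl

lemma freyRbarN_det' (σ : Gl) : (freyRbarN D k σ).det = castK P k (rbarN D σ).det := by
  rw [freyRbarN_apply, Matrix.det_fin_two, Matrix.det_fin_two, map_sub, map_mul, map_mul]
  rfl

lemma freyRbarN_charpoly (σ : Gl) : (freyRbarN D k σ).charpoly
    = X ^ 2 - C (castK P k (tbar P σ)) * X + C (castK P k (rbarN D σ).det) := by
  rw [Matrix.charpoly_fin_two, freyRbarN_trace, freyRbarN_det']

theorem freyRbarN_det (σ : Gl) : (freyRbarN D k σ).det = (S56.chiK P.p k σ : k) := by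
  rw [freyRbarN_det', rbarN_det]
  rfl

theorem freyRbarN_charpoly_frob {ℓ : ℕ} (hℓ : ℓ.Prime) (hgood : ¬ (ℓ : ℤ) ∣ P.a * P.b * P.c)
    (hpℓ : P.p ≠ ℓ) (A : ValuationSubring Kb) (hA : A.LiesOverPrime ℓ) (τ : Gl)
    (hτ : A.IsFrobeniusAt τ ℓ) :
    (freyRbarN D k τ).charpoly
      = X ^ 2 - C ((P.freyCurveInt.apOfModel ℓ : ℤ) : k) * X + C (ℓ : k) := by
  obtain ⟨h1, h2⟩ := rbarN_frob D hℓ hgood hpℓ A hA τ hτ
  rw [rbarN_trace] at h1
  rw [freyRbarN_charpoly, tbar, h1, h2, map_intCast, map_natCast]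

theorem freyRbarN_unram (T : Finset Nat.Primes)
    (hT : ∀ q : Nat.Primes, q ∉ T → (q : ℕ) ≠ 2 ∧ (q : ℕ) ≠ P.p) :
    S56.UnramOutside (freyRbarN D k) T := by
  intro q hq A hA σ hσ
  rw [freyRbarN_eq_one_iff]
  exact rbarN_unram D q.2 (hT q hq).1 (hT q hq).2 A hA hσ

theorem freyRbarN_ram_two (A : ValuationSubring Kb) (hA : A.LiesOverPrime 2) :
    ∃ u ∈ A.inertiaSubgroupIn ℚ, freyRbarN D k u ≠ 1 := by
  obtain ⟨u, hu, h⟩ := rbarN_ram_two D A hA
  exact ⟨u, hu, fun h' => h ((freyRbarN_eq_one_iff D k u).1 h')⟩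

theorem freyRbarN_unip_two (A : ValuationSubring Kb) (hA : A.LiesOverPrime 2) {σ τ : Gl}
    (hσ : σ ∈ A.inertiaSubgroupIn ℚ) (hτ : τ ∈ A.inertiaSubgroupIn ℚ) :
    (freyRbarN D k τ - 1) * (freyRbarN D k σ - 1) = 0 := by
  have h := congrArg (castK P k).mapMatrix (rbarN_unip_two D A hA hσ hτ)
  rw [map_mul, map_sub, map_sub, map_one, map_zero] at h
  exact h

theorem freyRbarN_charpoly_inertia_two (A : ValuationSubring Kb) (hA : A.LiesOverPrime 2) {σ : Gl}
    (hσ : σ ∈ A.inertiaSubgroupIn ℚ) : (freyRbarN D k σ).charpoly = (X - 1) ^ 2 := by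
  obtain ⟨h1, h2⟩ := trace_det_of_unip (rbarN_unip_two D A hA hσ hσ)
  rw [rbarN_trace] at h1
  rw [freyRbarN_charpoly, tbar, h1, h2, map_one, map_ofNat, map_one, map_ofNat]
  ring

theorem freyRbarN_cont : GaloisFactorsThroughFiniteLevel (freyRbarN D k) := by
  obtain ⟨L, hL, h⟩ := exists_level (wpA_finite P)
  refine ⟨L, hL, fun σ hσ => ?_⟩
  rw [freyRbarN_eq_one_iff']
  apply h
  rw [IntermediateField.mem_fixingSubgroup_iff]
  exact hσ

lemma absIrrOn_auxN (σ : Gl) :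
    (freyRbarN D k σ).map (algebraMap k (AlgebraicClosure k))
      = (rbarN D σ).map ((algebraMap k (AlgebraicClosure k)).comp (castK P k)) := by
  rw [freyRbarN_apply, Matrix.map_map]
  rfl

/-- **`S56.RbarHyp` for the Frey curve, normal form.** -/
theorem freyRbarN_hyp
    (hirr : WeierstrassCurve.Affine.Point.GaloisRepIsIrreducible (K := Kb) ℚ P.freyCurve P.p)
    (hk : QuadSplit P k) : S56.RbarHyp P.p (freyRbarN D k) := by
  obtain ⟨u, h1, h2⟩ := rbarN_exists_transvection D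
  refine ⟨freyRbarN_cont D k, freyRbarN_det D k, fun σ => ?_, ?_, ?_⟩
  · rw [freyRbarN_charpoly]
    exact hk _ _
  · intro v hv
    obtain ⟨σ, hσ, h⟩ := noLine_of_transvection
      ((algebraMap k (AlgebraicClosure k)).comp (castK P k)) (rbarN D) (rbarN_noLine D hirr) ⊤ u
      h1 h2 (fun _ => Subgroup.mem_top _) v hv
    exact ⟨σ, hσ, by rw [absIrrOn_auxN]; exact h⟩
  · intro H hH v hv
    obtain ⟨σ, hσ, h⟩ := noLine_of_index_two
      ((algebraMap k (AlgebraicClosure k)).comp (castK P k)) (two_ne_zero_zmod P) (rbarN D)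
      (rbarN_noLine D hirr) u h1 h2 H hH v hv
    exact ⟨σ, hσ, by rw [absIrrOn_auxN]; exact h⟩

end K

end Fermat.Agent.TW.ESide
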