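import Fermat.Agent.TW.ESide.Normal
import Fermat.Agent.RIB.Main.Ctx

/-!
# TW / E-side : the global `E`-side hypotheses `RIB.ECtx` for the Frey curve
-/

set_option autoImplicit false

namespace Fermat.Agent.TW.ESide

open Fermat.Agent.S05 Fermat.Agent.S13 Fermat.Agent.GAL
open Fermat.Agent.TW.TR Fermat.Agent.RIB.Rho

variable {P : FreyPackage}

theorem rbarN_cont (D : NormData P) : GaloisFactorsThroughFiniteLevel (rbarN D) := by
  obtain ⟨L, hL, h⟩ := exists_level (wpA_finite P)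
  refine ⟨L, hL, fun σ hσ => ?_⟩
  rw [rbarN_eq_one_iff, rbar0_eq_one_iff]
  apply h
  rw [IntermediateField.mem_fixingSubgroup_iff]
  exact hσ

lemma rbarN_trace_fun (D : NormData P) : (fun g => (rbarN D g).trace) = tbar P := by
  funext g
  exact rbarN_trace D g

/-- **`ECtx` for the Frey curve**, from the trace of Frobenius (any system `θ`). -/
theorem ectx_of_trace
    (hirr : WeierstrassCurve.Affine.Point.GaloisRepIsIrreducible (K := Kb) ℚ P.freyCurve P.p)
    (D : NormData P) (T : Finset ℕ) (θ : ℕ → ℤ) (h2 : 2 ∈ T) (hp : P.p ∈ T)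
    (hθ : ∀ r : ℕ, r.Prime → r ∉ T → ∀ A : ValuationSubring Kb, A.LiesOverPrime r →
      ∀ φ : Gl, A.IsFrobeniusAt φ r →
        (rbar0 P φ).trace = ((θ r : ℤ) : ZMod P.p) ∧ (rbar0 P φ).det = ((r : ℕ) : ZMod P.p)) :
    Fermat.Agent.RIB.ECtx P.p T θ (rbarN D) where
  hp5 := P.hp5
  two_mem := h2
  p_mem := hp
  cont := rbarN_cont D
  det := fun g => rbarN_det D g
  frob := fun r hr hrT A hA φ hφ => by
    rw [rbarN_trace, rbarN_det']
    exact hθ r hr hrT A hA φ hφ
  nf := ⟨D.σ₀, D.τ₀, D.u, by rw [rbarN_trace_fun]; exact D.hu, fun g => by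
    rw [rbarN_trace_fun]; rfl⟩
  unram := fun q hq hq2 hqp A hA σ hσ => rbarN_unram D hq hq2 hqp A hA hσ
  ram2 := fun A hA => rbarN_ram_two D A hA
  unip2 := fun A hA σ hσ τ hτ => rbarN_unip_two D A hA hσ hτ
  noLine := fun v hv => rbarN_noLine D hirr v hv

/-- **`ECtx` for the Frey curve**, `θ r = a_r` of the standard integral model. -/
theorem ectx_frey
    (hirr : WeierstrassCurve.Affine.Point.GaloisRepIsIrreducible (K := Kb) ℚ P.freyCurve P.p)
    (D : NormData P) (T : Finset ℕ) (h2 : 2 ∈ T) (hp : P.p ∈ T)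
    (hT : ∀ r : ℕ, r.Prime → (r : ℤ) ∣ P.a * P.b * P.c → r ∈ T) :
    Fermat.Agent.RIB.ECtx P.p T (fun r => P.freyCurveInt.apOfModel r) (rbarN D) :=
  ectx_of_trace hirr D T _ h2 hp fun r hr hrT A hA φ hφ =>
    rbar0_frob P hr (fun h => hrT (hT r hr h)) (fun h => hrT (h ▸ hp)) A hA φ hφ

end Fermat.Agent.TW.ESide
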