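import Fermat.Agent.S13.RatTors
import Fermat.Agent.S13.LadderTors

/-!
# TW / E-side : a curve `y² + xy = x³ + a₂x² + a₄x` at a place above `2`, `v(a₄) < 1`

There is a point `Q` of exact order `p` (`p` an odd prime) with `v(x(Q))^p = v(a₄)^2`.
-/

set_option autoImplicit false

namespace Fermat.Agent.TW.ESide

open Fermat.Agent.S05 Fermat.Agent.S13
open Polynomial WeierstrassCurve WeierstrassCurve.Affine WeierstrassCurve.Affine.Point

section Lad0

variable {R : Type*} [CommRing R]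

/-- the ladder at the node of a nodal cubic degenerates. -/
lemma lad_node (b2 : R) (n : ℕ) (hn : 1 ≤ n) :
    (lad (⟨b2, 0, 0, 0, 0⟩ : LadPar R) n).2 = (0, 0) ∧
      (lad (⟨b2, 0, 0, 0, 0⟩ : LadPar R) n).1.1 = 0 := by
  refine ladder_induction_pos (motive := fun n =>
    (lad (⟨b2, 0, 0, 0, 0⟩ : LadPar R) n).2 = (0, 0) ∧
      (lad (⟨b2, 0, 0, 0, 0⟩ : LadPar R) n).1.1 = 0) ?_ ?_ ?_ n hn
  · rw [lad_one]; simp [dbl]
  · intro n _ ih
    rw [lad_two_mul]
    simp [dbl, dadd, ih.1, ih.2]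
  · intro n _ ih
    rw [lad_two_mul_add_one]
    simp [dbl, dadd, ih.1]

lemma eval_torsPoly (b2 b4 b6 b8 x : R) (n : ℕ) :
    (torsPoly b2 b4 b6 b8 n).eval x
      = (lad (⟨b2, b4, b6, b8, x⟩ : LadPar R) n).2.1 * (lad (⟨b2, b4, b6, b8, x⟩ : LadPar R) n).1.2
        - (lad (⟨b2, b4, b6, b8, x⟩ : LadPar R) n).1.1
          * (lad (⟨b2, b4, b6, b8, x⟩ : LadPar R) n).2.2 := by
  rw [← polyPar_map_eval, lad_map]
  simp [torsPoly]

end Lad0

section Root

variable {K : Type*} [Field K] {Γ₀ : Type*} [LinearOrderedCommGroupWithZero Γ₀]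

lemma exists_root_val_lt [IsAlgClosed K] (v : Valuation K Γ₀) (f : K[X])
    (hlead : v f.leadingCoeff = 1) (h0 : v (f.eval 0) < 1) : ∃ r, f.eval r = 0 ∧ v r < 1 := by
  by_contra hcon
  push Not at hcon
  have hs := (IsAlgClosed.splits f).eq_prod_roots
  have e : f.eval 0 = f.leadingCoeff * (f.roots.map (fun r => -r)).prod := by
    conv_lhs => rw [hs]
    rw [eval_mul, eval_C, eval_multiset_prod, Multiset.map_map]
    simp
  rw [e, map_mul, hlead, one_mul, map_multiset_prod, Multiset.map_map] at h0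
  have h1 : 1 ≤ (f.roots.map (v ∘ fun r => -r)).prod := by
    apply Multiset.one_le_prod_of_one_le
    intro x hx
    rw [Multiset.mem_map] at hx
    obtain ⟨r, hr, rfl⟩ := hx
    simp only [Function.comp, Valuation.map_neg]
    exact hcon r (isRoot_of_mem_roots hr)
  exact absurd h0 (not_lt.2 h1)

end Root


/-- hypotheses: place above `2`, curve `y² + xy = x³ + a₂x² + a₄x`, `v(a₄) < 1`, `p` odd prime. -/
structure Node2 {K : Type*} [Field K] (A : ValuationSubring K) (W : WeierstrassCurve.Affine K)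
    (p : ℕ) : Prop where
  h2A : A.valuation ((2 : ℕ) : K) < 1
  n2 : (2 : K) ≠ 0
  hp : p.Prime
  hp2 : p ≠ 2
  ha₁ : W.a₁ = 1
  ha₂ : W.a₂ ∈ A
  ha₃ : W.a₃ = 0
  ha₄ : W.a₄ ≠ 0
  hv4 : A.valuation W.a₄ < 1
  ha₆ : W.a₆ = 0

section Main

variable {K : Type*} [Field K] {A : ValuationSubring K}
  {W : WeierstrassCurve.Affine K} {p : ℕ}

lemma Node2.D (N : Node2 A W p) : PrimeData A p 2 := ⟨N.hp, N.hp2, Nat.prime_two, N.hp2, N.h2A⟩

lemma Node2.I (N : Node2 A W p) : IntData A W :=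
  ⟨by rw [N.ha₁]; exact A.one_mem, N.ha₂, by rw [N.ha₃]; exact A.zero_mem,
    (A.valuation_le_one_iff _).1 N.hv4.le, by rw [N.ha₆]; exact A.zero_mem⟩

lemma Node2.H (N : Node2 A W p) : ShiftData W 0 W.a₄ W.b₂ := by
  refine ⟨?_, ?_, ?_, N.n2⟩
  · simp only [WeierstrassCurve.b₆, N.ha₃, N.ha₆]; ring
  · simp only [WeierstrassCurve.b₄, N.ha₃]; ring
  · ring

lemma Node2.h2 (N : Node2 A W p) : A.valuation (2 : K) < 1 := by simpa using N.h2A

lemma Node2.h4 (N : Node2 A W p) : A.valuation (4 : K) < 1 := by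
  have : (4 : K) = 2 * 2 := by norm_num
  rw [this, map_mul]
  exact mul_lt_one_of_lt_of_le₀ N.h2 N.h2.le

lemma Node2.hb' (N : Node2 A W p) : A.valuation W.b₂ = 1 := by
  have e : W.b₂ = 1 + 4 * W.a₂ := by
    simp only [WeierstrassCurve.b₂, N.ha₁]; ring
  rw [e, Valuation.map_add_eq_of_lt_left, map_one]
  rw [map_one, map_mul]
  exact mul_lt_one_of_lt_of_le₀ N.h4 ((A.valuation_le_one_iff _).2 N.ha₂)

/-- the value of the torsion polynomial at the node lies in the maximal ideal. -/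
lemma Node2.val_torsPoly (N : Node2 A W p) (n : ℕ) (hn : 1 ≤ n) :
    A.valuation ((torsPoly W.b₂ W.b₄ W.b₆ W.b₈ n).eval 0) < 1 := by
  have I := N.I
  set cA : LadPar A := ⟨⟨W.b₂, I.b₂⟩, ⟨W.b₄, I.b₄⟩, ⟨W.b₆, I.b₆⟩, ⟨W.b₈, I.b₈⟩, 0⟩ with hcA
  have e1 : (⟨W.b₂, W.b₄, W.b₆, W.b₈, 0⟩ : LadPar K) = cA.map A.subtype := by
    simp [LadPar.map, hcA]
  set φ := Ideal.Quotient.mk (IsLocalRing.maximalIdeal A) with hφ
  have hmem : ∀ (x : K) (hx : x ∈ A), A.valuation x < 1 → φ ⟨x, hx⟩ = 0 := by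
    intro x hx h
    rw [hφ, Ideal.Quotient.eq_zero_iff_mem]
    exact (A.valuation_lt_one_iff _).2 h
  have hb₄ : A.valuation W.b₄ < 1 := by
    have : W.b₄ = 2 * W.a₄ := by simp only [WeierstrassCurve.b₄, N.ha₁, N.ha₃]; ring
    rw [this, map_mul]; exact mul_lt_one_of_lt_of_le₀ N.h2 N.hv4.le
  have hb₆ : W.b₆ = 0 := by simp only [WeierstrassCurve.b₆, N.ha₃, N.ha₆]; ring
  have hb₈ : A.valuation W.b₈ < 1 := by
    have : W.b₈ = - W.a₄ ^ 2 := by simp only [WeierstrassCurve.b₈, N.ha₁, N.ha₃, N.ha₆]; ring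
    rw [this, Valuation.map_neg, map_pow]
    exact pow_lt_one₀ zero_le N.hv4 two_ne_zero
  have e2 : cA.map φ = ⟨φ ⟨W.b₂, I.b₂⟩, 0, 0, 0, 0⟩ := by
    have h6 : A.valuation W.b₆ < 1 := by rw [hb₆]; simp
    simp only [LadPar.map, hcA, _root_.map_zero]
    rw [hmem W.b₄ I.b₄ hb₄, hmem W.b₈ I.b₈ hb₈, hmem W.b₆ I.b₆ h6]
  obtain ⟨t, ht⟩ : ∃ t : A, t = (lad cA n).2.1 * (lad cA n).1.2
      - (lad cA n).1.1 * (lad cA n).2.2 := ⟨_, rfl⟩
  have h3 : φ t = 0 := by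
    have h := lad_node (φ ⟨W.b₂, I.b₂⟩) n hn
    rw [← e2, lad_map] at h
    have h21 : φ (lad cA n).2.1 = 0 := congrArg Prod.fst h.1
    have h22 : φ (lad cA n).2.2 = 0 := congrArg Prod.snd h.1
    have h11 : φ (lad cA n).1.1 = 0 := h.2
    rw [ht, map_sub, map_mul, map_mul, h21, h11, zero_mul, zero_mul, sub_zero]
  have h4 : (torsPoly W.b₂ W.b₄ W.b₆ W.b₈ n).eval 0 = (t : K) := by
    rw [eval_torsPoly, e1, lad_map, ht]
    simp
  rw [h4]
  rw [hφ, Ideal.Quotient.eq_zero_iff_mem] at h3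
  exact (A.valuation_lt_one_iff _).1 h3

variable [DecidableEq K]

/-- existence of a `p`-torsion point reducing to the node. -/
theorem Node2.exists_node [IsAlgClosed K] (N : Node2 A W p) (hΔ : W.Δ ≠ 0) :
    ∃ P : W.Point, P ≠ 0 ∧ p • P = 0 ∧ A.valuation (xc P) < 1 := by
  obtain ⟨n, hn⟩ : ∃ n, p = 2 * n + 1 := by
    obtain ⟨n, hn⟩ := N.hp.odd_of_ne_two N.hp2
    exact ⟨n, hn⟩
  have hn1 : 1 ≤ n := by
    have := N.hp.two_le; omega
  have hvp : A.valuation ((p : ℕ) : K) = 1 :=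
    valuation_natCast_eq_one A Nat.prime_two N.h2A (by
      intro h; exact N.hp2 ((Nat.prime_dvd_prime_iff_eq Nat.prime_two N.hp).1 h).symm)
  have hcast : (2 * (n : K) + 1) = ((p : ℕ) : K) := by rw [hn]; push_cast; ring
  have hchar : (2 * (n : K) + 1) ≠ 0 := by
    rw [hcast]
    exact (A.valuation.ne_zero_iff).1 (by rw [hvp]; exact one_ne_zero)
  have hlead : (torsPoly W.b₂ W.b₄ W.b₆ W.b₈ n).leadingCoeff = -(2 * (n : K) + 1) := by
    rw [leadingCoeff, natDegree_torsPoly n hn1 hchar]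
    exact (DL_torsPoly W.b₂ W.b₄ W.b₆ W.b₈ n hn1).2
  obtain ⟨r, hr, hvr⟩ := exists_root_val_lt A.valuation (torsPoly W.b₂ W.b₄ W.b₆ W.b₈ n)
    (by rw [hlead, Valuation.map_neg, hcast, hvp]) (N.val_torsPoly n hn1)
  obtain ⟨P, hP, rfl⟩ := exists_point_of_x hΔ r
  exact ⟨P, hP, by rw [hn]; exact (odd_nsmul_eq_zero_iff hP n).2 hr, hvr⟩


omit [DecidableEq K] in
private lemma eq_one_of_mul_eq_one {Γ₀ : Type*} [LinearOrderedCommGroupWithZero Γ₀] {a b : Γ₀}
    (ha : a ≤ 1) (hb : b ≤ 1) (h : a * b = 1) : a = 1 := by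
  refine le_antisymm ha ?_
  rw [← h]
  exact mul_le_of_le_one_right' hb

/-- doubling preserves `v(x) = 1`. -/
lemma Node2.unit_dbl (N : Node2 A W p) {Q : W.Point} (hQ : Q ≠ 0) (h2Q : Q + Q ≠ 0)
    (hp2Q : p • (Q + Q) = 0) (hX : A.valuation (xc Q) = 1) : A.valuation (xc (Q + Q)) = 1 := by
  have hd := N.H.dbl hQ h2Q
  simp only [sub_zero] at hd
  have r1 : A.valuation ((xc Q ^ 2 - W.a₄) ^ 2) = 1 := by
    rw [map_pow, Valuation.map_sub_eq_of_lt_left, map_pow, hX, one_pow, one_pow]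
    rw [map_pow, hX, one_pow]; exact N.hv4
  rw [← hd, map_mul] at r1
  refine eq_one_of_mul_eq_one (tors_x N.I N.D h2Q hp2Q) ?_ r1
  have I := N.I
  have h4 : (4 : K) ∈ A := (A.valuation_le_one_iff _).1 N.h4.le
  have hx : xc Q ∈ A := (A.valuation_le_one_iff _).1 hX.le
  exact (A.valuation_le_one_iff _).2 (A.mul_mem _ _ hx (A.add_mem _ _ (A.add_mem _ _
    (A.mul_mem _ _ h4 (pow_mem hx 2)) (A.mul_mem _ _ I.b₂ hx)) (A.mul_mem _ _ h4 I.h₄)))

/-- addition preserves `v(x) = 1`. -/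
lemma Node2.unit_add (N : Node2 A W p) {Q R : W.Point} (hQ : Q ≠ 0) (hR : R ≠ 0)
    (hadd : Q + R ≠ 0) (hsub : Q - R ≠ 0) (hpQ : p • Q = 0) (hpR : p • R = 0)
    (hXQ : A.valuation (xc Q) = 1) (hXR : A.valuation (xc R) = 1) :
    A.valuation (xc (Q + R)) = 1 := by
  have hne : xc Q ≠ xc R := xc_ne_of_add_sub_ne_zero hQ hR hadd hsub
  have hpr := N.H.prod hQ hR hne
  simp only [sub_zero] at hpr
  have r3 : A.valuation ((xc Q * xc R - W.a₄) ^ 2) = 1 := by
    rw [map_pow, Valuation.map_sub_eq_of_lt_left, map_mul, hXQ, hXR, one_mul, one_pow]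
    rw [map_mul, hXQ, hXR, one_mul]; exact N.hv4
  rw [← hpr, mul_assoc, map_mul] at r3
  refine eq_one_of_mul_eq_one (tors_x N.I N.D hadd (by rw [smul_add, hpQ, hpR, add_zero])) ?_ r3
  rw [map_mul, map_pow]
  exact mul_le_one' (tors_x N.I N.D hsub (by rw [smul_sub, hpQ, hpR, sub_zero]))
    (pow_le_one' (Valuation.map_sub_le _ hXQ.le hXR.le) 2)

/-- all nonzero multiples of a `p`-torsion point with `v(x) = 1` have `v(x) = 1`. -/
lemma Node2.unit_nsmul (N : Node2 A W p) {Q : W.Point} (hQ : Q ≠ 0) (hpQ : p • Q = 0)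
    (hX : A.valuation (xc Q) = 1) (m : ℕ) (hm1 : 1 ≤ m) (hm2 : m ≤ p - 1) :
    A.valuation (xc (m • Q)) = 1 := by
  have hp := N.hp
  have hz := zsmul_eq_zero_iff_dvd hp hQ hpQ
  have hne : ∀ k : ℕ, 1 ≤ k → k ≤ p - 1 → k • Q ≠ 0 := by
    intro k h1 h2 h
    rw [← natCast_zsmul, hz] at h
    have := Nat.le_of_dvd (by omega) (Int.natCast_dvd_natCast.1 h)
    omega
  have hpk : ∀ k : ℕ, p • (k • Q) = 0 := fun k => by rw [smul_comm, hpQ, smul_zero]
  induction m using Nat.strong_induction_on with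
  | _ m ih =>
    rcases m with _ | _ | _ | m
    · omega
    · simpa using hX
    · have e : (0 + 1 + 1) • Q = Q + Q := two_nsmul Q
      rw [e]
      exact N.unit_dbl hQ (by rw [← e]; exact hne _ hm1 hm2) (by rw [← e]; exact hpk _) hX
    · have e : (m + 1 + 1 + 1) • Q = (m + 1 + 1) • Q + Q := succ_nsmul _ _
      have e' : (m + 1 + 1) • Q - Q = (m + 1) • Q := by
        rw [succ_nsmul Q (m + 1)]; abel
      rw [e]
      exact N.unit_add (hne _ (by omega) (by omega)) hQ (by rw [← e]; exact hne _ hm1 hm2)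
        (by rw [e']; exact hne _ (by omega) (by omega)) (hpk _) hpQ
        (ih (m + 1 + 1) (by omega) (by omega) (by omega)) hX

/-- all nonzero multiples of a `p`-torsion point at the node are at the node. -/
lemma Node2.node_zsmul (N : Node2 A W p) {P : W.Point} (hP : P ≠ 0) (hpP : p • P = 0)
    (hX : A.valuation (xc P) < 1) (j : ℤ) (hj : ¬ (p : ℤ) ∣ j) :
    A.valuation (xc (j • P)) < 1 := by
  have hp := N.hp
  have hz := zsmul_eq_zero_iff_dvd hp hP hpP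
  have hj0 : j • P ≠ 0 := fun h => hj ((hz j).1 h)
  have hpj : p • (j • P) = 0 := by rw [smul_comm, hpP, smul_zero]
  refine lt_of_le_of_ne (tors_x N.I N.D hj0 hpj) ?_
  intro h1
  have hcop : IsCoprime (p : ℤ) j :=
    (Prime.coprime_iff_not_dvd (Nat.prime_iff_prime_int.1 hp)).2 hj
  obtain ⟨a, b, hab⟩ := hcop
  have hb : ¬ (p : ℤ) ∣ b := by
    intro hb
    have : (p : ℤ) ∣ 1 := by
      rw [← hab]; exact dvd_add (Dvd.intro_left _ rfl) (Dvd.dvd.mul_right hb _)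
    have := Int.le_of_dvd (by norm_num) this
    have := hp.two_le
    omega
  have e : P = b • (j • P) := by
    rw [smul_smul]
    have : b * j = 1 - a * p := by linear_combination hab
    rw [this, sub_smul, one_smul, mul_smul, natCast_zsmul, hpP, smul_zero, sub_zero]
  obtain ⟨m, hm1, hm2, hm⟩ := exists_nat_rep hp hpj b hb
  have := N.unit_nsmul hj0 hpj h1 m hm1 hm2
  rw [← hm, ← e] at this
  exact absurd this hX.ne

/-- the valuation of the `x`-coordinate of a suitable multiple of a `p`-torsion point at the node. -/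
theorem Node2.node_val (N : Node2 A W p) {P : W.Point} (hP : P ≠ 0) (hpP : p • P = 0)
    (hX : A.valuation (xc P) < 1) :
    ∃ j0 : ℤ, ¬ (p : ℤ) ∣ j0 ∧ xc (j0 • P) ≠ 0 ∧
      A.valuation (xc (j0 • P)) ^ p = A.valuation W.a₄ ^ 2 := by
  have hp := N.hp
  have hp2 := N.hp2
  have hp3 : 3 ≤ p := by
    have := hp.two_le; omega
  have H := N.H
  have hz := zsmul_eq_zero_iff_dvd hp hP hpP
  have hpj : ∀ j : ℤ, p • (j • P) = 0 := fun j => by rw [smul_comm, hpP, smul_zero]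
  have hpi : Prime (p : ℤ) := Nat.prime_iff_prime_int.1 hp
  have h2nd : ∀ j : ℤ, ¬ (p : ℤ) ∣ j → ¬ (p : ℤ) ∣ 2 * j := by
    intro j hj h
    rcases hpi.dvd_or_dvd h with h | h
    · have := Int.le_of_dvd (by norm_num) h
      omega
    · exact hj h
  have hlt := N.node_zsmul hP hpP hX
  obtain ⟨j0, hj0, hmax⟩ := Finset.exists_max_image (Finset.Icc 1 (p - 1))
    (fun j : ℕ => A.valuation (xc (j • P))) ⟨1, by simp; omega⟩
  rw [Finset.mem_Icc] at hj0
  have hj0nd : ¬ (p : ℤ) ∣ (j0 : ℤ) := by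
    intro h
    have := Nat.le_of_dvd (by omega) (Int.natCast_dvd_natCast.1 h)
    omega
  obtain ⟨P', hP'⟩ : ∃ P', P' = (j0 : ℤ) • P := ⟨_, rfl⟩
  have hP'0 : P' ≠ 0 := by rw [hP']; exact fun h => hj0nd ((hz _).1 h)
  have hpP' : p • P' = 0 := by rw [hP']; exact hpj _
  have hz' := zsmul_eq_zero_iff_dvd hp hP'0 hpP'
  have hmulnd : ∀ j : ℤ, ¬ (p : ℤ) ∣ j → ¬ (p : ℤ) ∣ j * j0 := by
    intro j hj h
    rcases hpi.dvd_or_dvd h with h | h
    · exact hj h
    · exact hj0nd h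
  have hsm : ∀ j : ℤ, j • P' = (j * j0) • P := fun j => by rw [hP', mul_smul]
  have hne0 : ∀ j : ℤ, ¬ (p : ℤ) ∣ j → j • P' ≠ 0 := fun j hj h => hj ((hz' j).1 h)
  have heta : ∀ j : ℤ, ¬ (p : ℤ) ∣ j →
      2 * yc (j • P') + W.a₁ * xc (j • P') + W.a₃ ≠ 0 := by
    intro j hj h
    have h1 := (add_self_eq_zero_iff (hne0 j hj)).2 h
    rw [← two_zsmul, smul_smul] at h1
    exact h2nd j hj ((hz' _).1 h1)
  have hprod : ∀ j : ℤ, ¬ (p : ℤ) ∣ j →
      (xc (j • P')) * (4 * (xc (j • P')) ^ 2 + W.b₂ * (xc (j • P')) + 4 * W.a₄) ≠ 0 := by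
    intro j hj
    have := H.eta_sq (hne0 j hj)
    simp only [sub_zero] at this
    rw [← this]
    exact pow_ne_zero 2 (heta j hj)
  have hxne : ∀ i j : ℤ, ¬ (p : ℤ) ∣ i → ¬ (p : ℤ) ∣ j → ¬ (p : ℤ) ∣ i + j → ¬ (p : ℤ) ∣ i - j →
      xc (i • P') ≠ xc (j • P') := by
    intro i j hi hj hij hij'
    apply xc_ne_of_add_sub_ne_zero (hne0 i hi) (hne0 j hj)
    · rw [← add_smul]; exact hne0 _ hij
    · rw [← sub_smul]; exact hne0 _ hij'
  have key := mult_val_gen A.valuation p hp hp2 (fun j => xc (j • P')) W.a₄ W.b₂ N.ha₄ N.hb'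
    N.h2.le N.n2
    (fun j hj => left_ne_zero_of_mul (hprod j hj))
    (fun j hj => by
      rw [hsm]; exact hlt _ (hmulnd j hj))
    (fun i j hij => by
      have : i • P' = -(j • P') := by
        rw [eq_neg_iff_add_eq_zero, ← add_smul]; exact (hz' _).2 hij
      rw [this, xc_neg])
    (fun j hj => by
      obtain ⟨m, hm1, hm2, hm⟩ := exists_nat_rep hp hpP (j * j0) (hmulnd j hj)
      rw [hsm, hm, one_smul, hP', natCast_zsmul]
      exact hmax m (by rw [Finset.mem_Icc]; exact ⟨hm1, hm2⟩))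
    (fun i j hi hj hij hij' => hxne i j hi hj hij hij')
    (fun i j hi hj hij hij' => by
      rw [add_smul, sub_smul]
      have := H.prod (hne0 i hi) (hne0 j hj) (hxne i j hi hj hij hij')
      simpa only [sub_zero] using this)
    (fun j hj => right_ne_zero_of_mul (hprod j hj))
    (fun j hj => by
      have h1 : (2 * j) • P' = j • P' + j • P' := by rw [two_mul, add_smul]
      rw [h1]
      have := H.dbl (hne0 j hj) (by rw [← h1]; exact hne0 _ (h2nd j hj))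
      simpa only [sub_zero] using this)
  simp only [one_smul] at key
  have h1nd : ¬ (p : ℤ) ∣ 1 := by
    intro h
    have := Int.le_of_dvd (by norm_num) h
    omega
  have hx0 : xc P' ≠ 0 := by
    have := left_ne_zero_of_mul (hprod 1 h1nd)
    rwa [one_smul] at this
  exact ⟨j0, hj0nd, by rw [← hP']; exact hx0, by rw [← hP']; exact key⟩

/-- **Main abstract statement**: a point of order `p` with `v(x)^p = v(a₄)^2`. -/
theorem Node2.exists_torsion_val [IsAlgClosed K] (N : Node2 A W p) (hΔ : W.Δ ≠ 0) :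
    ∃ Q : W.Point, Q ≠ 0 ∧ p • Q = 0 ∧ xc Q ≠ 0 ∧
      A.valuation (xc Q) ^ p = A.valuation W.a₄ ^ 2 := by
  obtain ⟨P, hP, hpP, hX⟩ := N.exists_node hΔ
  obtain ⟨j0, hj0, hx0, hv⟩ := N.node_val hP hpP hX
  refine ⟨j0 • P, fun h => hj0 ((zsmul_eq_zero_iff_dvd N.hp hP hpP j0).1 h), ?_, hx0, hv⟩
  rw [smul_comm, hpP, smul_zero]

end Main

end Fermat.Agent.TW.ESide
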