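import Fermat.Agent.TW.ESide.Ram2
import Fermat.Agent.TW.ESide.Big
import Fermat.Agent.S05
import Fermat.Agent.S13.WPD
import Fermat.Agent.S13.Glue
import Fermat.Agent.HW.TorsCount
import Fermat.Agent.S40.Quad
import Fermat.Agent.MAZ.End.Gal0
import Fermat.Agent.S56.TW.Hyp

/-!
# TW / E-side : the mod `p` representation of the Frey curve in matrix form, `S56.RbarHyp`
-/

set_option autoImplicit false

namespace Fermat.Agent.TW.ESide

open Fermat.Agent.S05 Fermat.Agent.S13 Fermat.Agent.GAL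
open WeierstrassCurve WeierstrassCurve.Affine WeierstrassCurve.Affine.Point
open Polynomial

variable (P : FreyPackage)

instance neZeroPp : NeZero P.p := ⟨P.hp0⟩

theorem card_tors : Nat.card (Tors P) = P.p ^ 2 := by
  have hΔ : P.freyCurve.Δ ≠ 0 := by
    intro h
    apply EK_Δ_ne_zero P
    have : (EK P).Δ = algebraMap ℚ Kb P.freyCurve.Δ := WeierstrassCurve.map_Δ _ _
    rw [this, h, _root_.map_zero]
  exact HW.card_torsionBy (k := Kb) P.freyCurve two_ne_zero hΔ P.hp_odd
    (Nat.cast_ne_zero.2 P.hp0)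

theorem finrank_tors : Module.finrank (ZMod P.p) (Tors P) = 2 := by
  have hfin := wpA_finite P
  have : Module.Finite (ZMod P.p) (Tors P) := Module.Finite.of_finite
  have h := Module.natCard_eq_pow_finrank (K := ZMod P.p) (V := Tors P)
  rw [Nat.card_zmod, card_tors] at h
  exact (Nat.pow_right_injective P.pp.two_le h).symm

instance finiteTors : Finite (Tors P) := wpA_finite P

instance moduleFiniteTors : Module.Finite (ZMod P.p) (Tors P) := Module.Finite.of_finite

/-- a basis of `E[p]` -/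
noncomputable def torsBasis : Module.Basis (Fin 2) (ZMod P.p) (Tors P) :=
  Module.finBasisOfFinrankEq _ _ (finrank_tors P)

/-- the Galois action on `E[p]` as a monoid hom to the endomorphism ring -/
noncomputable def rhoEnd : Gl →* Module.End (ZMod P.p) (Tors P) where
  toFun σ := rhoLin P σ
  map_one' := by ext x; simp
  map_mul' σ τ := by ext x; simp [mul_smul]

@[simp] lemma rhoEnd_apply (σ : Gl) (x : Tors P) : rhoEnd P σ x = σ • x := rfl

/-- the mod `p` representation of the Frey curve, matrix form over `𝔽_p` -/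
noncomputable def rbar0 : Gl →* Matrix (Fin 2) (Fin 2) (ZMod P.p) :=
  ((LinearMap.toMatrixAlgEquiv (torsBasis P)).toAlgHom.toRingHom.toMonoidHom).comp (rhoEnd P)

lemma rbar0_apply (σ : Gl) : rbar0 P σ = LinearMap.toMatrixAlgEquiv (torsBasis P) (rhoEnd P σ) := rfl

lemma rbar0_eq_one_iff (σ : Gl) : rbar0 P σ = 1 ↔ ∀ x : Tors P, σ • x = x := by
  rw [rbar0_apply, ← map_one (LinearMap.toMatrixAlgEquiv (torsBasis P)),
    (LinearMap.toMatrixAlgEquiv (torsBasis P)).injective.eq_iff]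
  constructor
  · intro h x
    have := congrArg (fun f => f x) h
    simpa using this
  · intro h
    ext x
    simp [h x]

lemma rbar0_mulVec (σ : Gl) (x : Tors P) :
    (rbar0 P σ).mulVec ((torsBasis P).repr x) = (torsBasis P).repr (σ • x) := by
  rw [rbar0_apply]
  exact LinearMap.toMatrix_mulVec_repr (torsBasis P) (torsBasis P) (rhoEnd P σ) x


/-- no stable line over `𝔽_p` -/
theorem rbar0_noLine (hirr : GaloisRepIsIrreducible (K := Kb) ℚ P.freyCurve P.p)
    (v : Fin 2 → ZMod P.p) (hv : v ≠ 0) :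
    ∃ σ : Gl, ∀ c : ZMod P.p, (rbar0 P σ).mulVec v ≠ c • v := by
  by_contra hcon
  push Not at hcon
  obtain ⟨x, hx⟩ : ∃ x : Tors P, ((torsBasis P).repr x : Fin 2 → ZMod P.p) = v :=
    ⟨(torsBasis P).equivFun.symm v, by
      have := (torsBasis P).equivFun.apply_symm_apply v
      exact this⟩
  have hx0 : x ≠ 0 := by
    rintro rfl
    apply hv
    rw [← hx]; simp
  have hstab : ∀ σ : Gl, ∃ c : ZMod P.p, σ • x = c • x := by
    intro σ
    obtain ⟨c, hc⟩ := hcon σ
    refine ⟨c, ?_⟩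
    apply (torsBasis P).repr.injective
    apply DFunLike.coe_injective
    rw [← rbar0_mulVec, hx, hc, map_smul, ← hx]
    rfl
  have hN : IsGaloisStable ℚ (Submodule.span (ZMod P.p) {x}) := by
    intro σ y hy
    obtain ⟨a, rfl⟩ := Submodule.mem_span_singleton.1 hy
    obtain ⟨c, hc⟩ := hstab σ
    have : σ • (a • x) = a • σ • x := (rhoLin P σ).map_smul a x
    rw [this, hc]
    exact Submodule.smul_mem _ _ (Submodule.smul_mem _ _ (Submodule.mem_span_singleton_self x))
  rcases hirr.2 _ hN with h | h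
  · exact hx0 ((Submodule.span_singleton_eq_bot).1 h)
  · have h1 := finrank_span_singleton (K := ZMod P.p) hx0
    rw [h, finrank_top, finrank_tors] at h1
    omega

/-- transport of an identity between endomorphisms to matrices -/
lemma toMat_eq_zero {f : Module.End (ZMod P.p) (Tors P)} (h : ∀ x, f x = 0) :
    LinearMap.toMatrixAlgEquiv (torsBasis P) f = 0 := by
  have : f = 0 := by ext x; simp [h x]
  rw [this, _root_.map_zero]

lemma toMat_quad (f : Module.End (ZMod P.p) (Tors P)) (a b : ZMod P.p) :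
    LinearMap.toMatrixAlgEquiv (torsBasis P) f * LinearMap.toMatrixAlgEquiv (torsBasis P) f
      - a • LinearMap.toMatrixAlgEquiv (torsBasis P) f + b • 1
    = LinearMap.toMatrixAlgEquiv (torsBasis P) (f * f - a • f + b • 1) := by
  rw [map_add, map_sub, map_mul, map_smul, map_smul, map_one]

/-- inertia at `2` is unipotent (strong form). -/
theorem rbar0_unip_two (A : ValuationSubring Kb) (hA : A.LiesOverPrime 2) {σ τ : Gl}
    (hσ : σ ∈ A.inertiaSubgroupIn ℚ) (hτ : τ ∈ A.inertiaSubgroupIn ℚ) :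
    (rbar0 P τ - 1) * (rbar0 P σ - 1) = 0 := by
  rw [rbar0_apply, rbar0_apply, ← map_one (LinearMap.toMatrixAlgEquiv (torsBasis P)), ← map_sub,
    ← map_sub, ← map_mul]
  apply toMat_eq_zero
  intro x
  have := wpD P A hA σ τ hσ hτ x
  simp only [Module.End.mul_apply, LinearMap.sub_apply, rhoEnd_apply, Module.End.one_apply]
  rw [this, sub_self]

/-- inertia at `2` acts non trivially. -/
theorem rbar0_ram_two (A : ValuationSubring Kb) (hA : A.LiesOverPrime 2) :
    ∃ u ∈ A.inertiaSubgroupIn ℚ, rbar0 P u ≠ 1 := by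
  obtain ⟨σ, hσ, x, hx⟩ := frey_exists_inertia_two_ne' P A hA
  exact ⟨σ, hσ, fun h => hx ((rbar0_eq_one_iff P σ).1 h x)⟩

/-- a transvection in the image. -/
theorem exists_transvection :
    ∃ u : Gl, rbar0 P u ≠ 1 ∧ (rbar0 P u - 1) * (rbar0 P u - 1) = 0 := by
  obtain ⟨A, hA⟩ := Fermat.Agent.S54.exists_liesOverPrime Nat.prime_two
  obtain ⟨u, hu, h1⟩ := rbar0_ram_two P A hA
  exact ⟨u, h1, rbar0_unip_two P A hA hu hu⟩

lemma not_scalar_of_transvection {F : Type*} [Field F] {M : Matrix (Fin 2) (Fin 2) F} (h1 : M ≠ 1)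
    (h2 : (M - 1) * (M - 1) = 0) (c : F) : M ≠ c • 1 := by
  intro h
  apply h1
  have e : M - 1 = (c - 1) • (1 : Matrix (Fin 2) (Fin 2) F) := by rw [h, sub_smul, one_smul]
  rw [e, smul_mul_smul_comm, one_mul] at h2
  have h00 := congrFun (congrFun h2 0) 0
  simp at h00
  have hc : c = 1 := sub_eq_zero.1 h00
  rw [h, hc, one_smul]

/-- the quadratic relation on points -/
theorem tors_quad : ∃ t : Gl → ℤ, ∀ (σ : Gl) (x : Tors P),
    σ • x + ((cycloChar P.p σ : (ZMod P.p)ˣ) : ZMod P.p).val • σ⁻¹ • x = t σ • x := by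
  have hΔ : P.freyCurveInt.Δ ≠ 0 := by
    intro h
    have h1 := Fermat.Agent.MAZ.End.freyCurveInt_disc P
    rw [h, mul_zero] at h1
    have h2 : P.a ^ P.p * P.b ^ P.p * P.c ^ P.p ≠ 0 :=
      mul_ne_zero (mul_ne_zero (pow_ne_zero _ P.ha0) (pow_ne_zero _ P.hb0)) (pow_ne_zero _ P.hc0)
    exact pow_ne_zero 2 h2 h1.symm
  obtain ⟨t, ht, -⟩ := Fermat.Agent.S40.exists_quad P.freyCurveInt hΔ (p := P.p) (M := 1) P.pp
    (by have := P.hp5; omega)
  refine ⟨t, fun σ x => ?_⟩
  have key : ∀ (W : WeierstrassCurve ℚ) (hW : P.freyCurveInt.map (Int.castRingHom ℚ) = W)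
      (Q : (W.toAffine⁄Kb).Point) (hQ : P.p • Q = 0),
      σ • Q + ((cycloChar P.p σ : (ZMod P.p)ˣ) : ZMod P.p).val • σ⁻¹ • Q = t σ • Q := by
    intro W hW
    subst hW
    intro Q hQ
    exact ht σ Q hQ
  apply Subtype.ext
  have hx : P.p • (x : (EK P).Point) = 0 := by
    have h := x.2
    rw [Submodule.mem_torsionBy_iff] at h
    rw [← natCast_zsmul]
    exact h
  exact key P.freyCurve (Fermat.Agent.MAZ.End.freyCurveInt_map P) (x : (EK P).Point) hx

/-- the quadratic relation for matrices -/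
theorem rbar0_quad (σ : Gl) : ∃ t : ZMod P.p, rbar0 P σ * rbar0 P σ - t • rbar0 P σ
    + ((cycloChar P.p σ : (ZMod P.p)ˣ) : ZMod P.p) • 1 = 0 := by
  obtain ⟨t, ht⟩ := tors_quad P
  refine ⟨(t σ : ZMod P.p), ?_⟩
  rw [rbar0_apply, toMat_quad]
  apply toMat_eq_zero
  intro x
  have h := ht σ (σ • x)
  rw [inv_smul_smul] at h
  simp only [LinearMap.add_apply, LinearMap.sub_apply, Module.End.mul_apply, LinearMap.smul_apply,
    rhoEnd_apply, Module.End.one_apply]
  rw [Int.cast_smul_eq_zsmul, ← h]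
  have e : ((cycloChar P.p σ : (ZMod P.p)ˣ) : ZMod P.p) • x
      = ((cycloChar P.p σ : (ZMod P.p)ˣ) : ZMod P.p).val • x := by
    rw [← Nat.cast_smul_eq_nsmul (ZMod P.p), ZMod.natCast_zmod_val]
  rw [e]
  abel

/-- `det = χ_p` -/
theorem rbar0_det (σ : Gl) : (rbar0 P σ).det = ((cycloChar P.p σ : (ZMod P.p)ˣ) : ZMod P.p) := by
  obtain ⟨u, h1, h2⟩ := exists_transvection P
  exact det_eq_of_quad (rbar0 P) (cycloChar P.p) (rbar0_quad P) u
    (not_scalar_of_transvection h1 h2) σ

/-- trace and determinant of Frobenius -/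
theorem rbar0_frob {ℓ : ℕ} (hℓ : ℓ.Prime) (hgood : ¬ (ℓ : ℤ) ∣ P.a * P.b * P.c) (hpℓ : P.p ≠ ℓ)
    (A : ValuationSubring Kb) (hA : A.LiesOverPrime ℓ) (τ : Gl) (hτ : A.IsFrobeniusAt τ ℓ) :
    (rbar0 P τ).trace = (P.freyCurveInt.apOfModel ℓ : ZMod P.p) ∧
      (rbar0 P τ).det = (ℓ : ZMod P.p) := by
  obtain ⟨u, h1, h2⟩ := exists_transvection P
  have hχ : ((cycloChar P.p τ : (ZMod P.p)ˣ) : ZMod P.p) = ℓ :=
    cycloChar_of_isFrobeniusAt hℓ (Ne.symm hpℓ) hA hτ
  refine ⟨?_, by rw [rbar0_det, hχ]⟩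
  apply trace_eq_of_quad (rbar0 P) (cycloChar P.p) (rbar0_quad P) u
    (not_scalar_of_transvection h1 h2) τ
  rw [hχ, rbar0_apply, toMat_quad]
  apply toMat_eq_zero
  intro x
  have h := Fermat.Agent.MAZ.End.frey_frobenius_relation P hℓ hgood hpℓ A hA τ hτ x
  simp only [LinearMap.add_apply, LinearMap.sub_apply, Module.End.mul_apply, LinearMap.smul_apply,
    rhoEnd_apply, Module.End.one_apply]
  rw [Int.cast_smul_eq_zsmul, Nat.cast_smul_eq_nsmul, ← natCast_zsmul]
  exact h

/-- unramified outside `2 p` -/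
theorem rbar0_unram {q : ℕ} (hq : q.Prime) (hq2 : q ≠ 2) (hqp : q ≠ P.p)
    (A : ValuationSubring Kb) (hA : A.LiesOverPrime q) {σ : Gl} (hσ : σ ∈ A.inertiaSubgroupIn ℚ) :
    rbar0 P σ = 1 :=
  (rbar0_eq_one_iff P σ).2 (Fermat.Agent.S05.result P hq hq2 hqp A hA σ hσ)

/-- trace and determinant of a unipotent matrix -/
lemma trace_det_of_unip {F : Type*} [Field F] {M : Matrix (Fin 2) (Fin 2) F}
    (h2 : (M - 1) * (M - 1) = 0) : M.trace = 2 ∧ M.det = 1 := by
  by_cases h1 : M = 1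
  · subst h1
    simp
  · apply trace_det_of_quad (not_scalar_of_transvection h1 h2)
    rw [← h2, sub_mul, mul_sub, mul_one, one_mul, two_smul, one_smul]
    abel

section K

variable (k : Type) [Field k] [CharP k P.p]

/-- `𝔽_p → k` -/
noncomputable abbrev castK : ZMod P.p →+* k := ZMod.castHom (dvd_refl P.p) k

/-- **the mod `p` representation of the Frey curve with coefficients in `k`, matrix form.** -/
noncomputable def freyRbar : S56.GQ →* S56.M2 k :=
  ((castK P k).mapMatrix.toMonoidHom).comp (rbar0 P)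

lemma freyRbar_apply (σ : Gl) : freyRbar P k σ = (rbar0 P σ).map (castK P k) := rfl

lemma freyRbar_eq_one_iff (σ : Gl) : freyRbar P k σ = 1 ↔ rbar0 P σ = 1 := by
  rw [freyRbar_apply]
  constructor
  · intro h
    ext i j
    have := congrFun (congrFun h i) j
    rw [Matrix.map_apply] at this
    apply (castK P k).injective
    rw [this]
    by_cases hij : i = j
    · subst hij; simp
    · simp [hij]
  · intro h
    rw [h, Matrix.map_one _ (_root_.map_zero _) (map_one _)]

lemma freyRbar_trace (σ : Gl) : (freyRbar P k σ).trace = castK P k (rbar0 P σ).trace := by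
  rw [freyRbar_apply, Matrix.trace_fin_two, Matrix.trace_fin_two, map_add]
  rfl

lemma freyRbar_det' (σ : Gl) : (freyRbar P k σ).det = castK P k (rbar0 P σ).det := by
  rw [freyRbar_apply, Matrix.det_fin_two, Matrix.det_fin_two, map_sub, map_mul, map_mul]
  rfl

lemma freyRbar_charpoly (σ : Gl) : (freyRbar P k σ).charpoly
    = X ^ 2 - C (castK P k (rbar0 P σ).trace) * X + C (castK P k (rbar0 P σ).det) := by
  rw [Matrix.charpoly_fin_two, freyRbar_trace, freyRbar_det']

/-- `det = χ_p` -/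
theorem freyRbar_det (σ : Gl) : (freyRbar P k σ).det = (S56.chiK P.p k σ : k) := by
  rw [freyRbar_det', rbar0_det]
  rfl

/-- characteristic polynomial of Frobenius -/
theorem freyRbar_charpoly_frob {ℓ : ℕ} (hℓ : ℓ.Prime) (hgood : ¬ (ℓ : ℤ) ∣ P.a * P.b * P.c)
    (hpℓ : P.p ≠ ℓ) (A : ValuationSubring Kb) (hA : A.LiesOverPrime ℓ) (τ : Gl)
    (hτ : A.IsFrobeniusAt τ ℓ) :
    (freyRbar P k τ).charpoly = X ^ 2 - C ((P.freyCurveInt.apOfModel ℓ : ℤ) : k) * X + C (ℓ : k) := by
  obtain ⟨h1, h2⟩ := rbar0_frob P hℓ hgood hpℓ A hA τ hτ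
  rw [freyRbar_charpoly, h1, h2, map_intCast, map_natCast]

/-- unramified outside `2 p` -/
theorem freyRbar_unram (T : Finset Nat.Primes)
    (hT : ∀ q : Nat.Primes, q ∉ T → (q : ℕ) ≠ 2 ∧ (q : ℕ) ≠ P.p) :
    S56.UnramOutside (freyRbar P k) T := by
  intro q hq A hA σ hσ
  rw [freyRbar_eq_one_iff]
  exact rbar0_unram P q.2 (hT q hq).1 (hT q hq).2 A hA hσ

/-- ramified at `2` -/
theorem freyRbar_ram_two (A : ValuationSubring Kb) (hA : A.LiesOverPrime 2) :
    ∃ u ∈ A.inertiaSubgroupIn ℚ, freyRbar P k u ≠ 1 := by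
  obtain ⟨u, hu, h⟩ := rbar0_ram_two P A hA
  exact ⟨u, hu, fun h' => h ((freyRbar_eq_one_iff P k u).1 h')⟩

/-- unipotent at `2` -/
theorem freyRbar_unip_two (A : ValuationSubring Kb) (hA : A.LiesOverPrime 2) {σ τ : Gl}
    (hσ : σ ∈ A.inertiaSubgroupIn ℚ) (hτ : τ ∈ A.inertiaSubgroupIn ℚ) :
    (freyRbar P k τ - 1) * (freyRbar P k σ - 1) = 0 := by
  have h := congrArg (castK P k).mapMatrix (rbar0_unip_two P A hA hσ hτ)
  rw [map_mul, map_sub, map_sub, map_one, _root_.map_zero] at h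
  exact h

theorem freyRbar_charpoly_inertia_two (A : ValuationSubring Kb) (hA : A.LiesOverPrime 2) {σ : Gl}
    (hσ : σ ∈ A.inertiaSubgroupIn ℚ) : (freyRbar P k σ).charpoly = (X - 1) ^ 2 := by
  obtain ⟨h1, h2⟩ := trace_det_of_unip (rbar0_unip_two P A hA hσ hσ)
  rw [freyRbar_charpoly, h1, h2, map_one, map_ofNat, map_one, map_ofNat]
  ring

/-- finite level -/
theorem freyRbar_cont : GaloisFactorsThroughFiniteLevel (freyRbar P k) := by
  obtain ⟨L, hL, h⟩ := exists_level (wpA_finite P)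
  refine ⟨L, hL, fun σ hσ => ?_⟩
  rw [freyRbar_eq_one_iff, rbar0_eq_one_iff]
  apply h
  rw [IntermediateField.mem_fixingSubgroup_iff]
  exact hσ

/-- monic quadratic polynomials over `𝔽_p` split in `k`. -/
def QuadSplit : Prop := ∀ a b : ZMod P.p, ∃ α β : k,
  (X ^ 2 - C (castK P k a) * X + C (castK P k b) : k[X]) = (X - C α) * (X - C β)

lemma absIrrOn_aux (σ : Gl) :
    (freyRbar P k σ).map (algebraMap k (AlgebraicClosure k))
      = (rbar0 P σ).map ((algebraMap k (AlgebraicClosure k)).comp (castK P k)) := by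
  rw [freyRbar_apply, Matrix.map_map]
  rfl

/-- **`S56.RbarHyp` for the Frey curve.** -/
theorem freyRbar_hyp (hirr : GaloisRepIsIrreducible (K := Kb) ℚ P.freyCurve P.p)
    (hk : QuadSplit P k) : S56.RbarHyp P.p (freyRbar P k) := by
  obtain ⟨u, h1, h2⟩ := exists_transvection P
  have h2F : (2 : ZMod P.p) ≠ 0 := by
    intro h
    have h3 : ((2 : ℕ) : ZMod P.p) = 0 := by exact_mod_cast h
    rw [ZMod.natCast_eq_zero_iff] at h3
    have := Nat.le_of_dvd (by norm_num) h3
    have := P.hp5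
    omega
  refine ⟨freyRbar_cont P k, freyRbar_det P k, fun σ => ?_, ?_, ?_⟩
  · rw [freyRbar_charpoly]
    exact hk _ _
  · intro v hv
    obtain ⟨σ, hσ, h⟩ := noLine_of_transvection
      ((algebraMap k (AlgebraicClosure k)).comp (castK P k)) (rbar0 P) (rbar0_noLine P hirr) ⊤ u h1 h2
      (fun _ => Subgroup.mem_top _) v hv
    exact ⟨σ, hσ, by rw [absIrrOn_aux]; exact h⟩
  · intro H hH v hv
    obtain ⟨σ, hσ, h⟩ := noLine_of_index_two
      ((algebraMap k (AlgebraicClosure k)).comp (castK P k)) h2F (rbar0 P) (rbar0_noLine P hirr) u h1 h2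
      H hH v hv
    exact ⟨σ, hσ, by rw [absIrrOn_aux]; exact h⟩

/-- `𝔽_{p²}` (any field with `p²` elements) splits all quadratic polynomials over `𝔽_p`. -/
theorem quadSplit_of_card (hcard : Nat.card k = P.p ^ 2) : QuadSplit P k := by
  classical
  have hfin : Finite k := Nat.finite_of_card_ne_zero (by rw [hcard]; exact pow_ne_zero 2 P.hp0)
  have := Fintype.ofFinite k
  have hp5 := P.hp5
  have h2k : (2 : k) ≠ 0 := by
    intro h
    have h3 : ((2 : ℕ) : k) = 0 := by exact_mod_cast h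
    rw [CharP.cast_eq_zero_iff k P.p] at h3
    have := Nat.le_of_dvd (by norm_num) h3
    omega
  have hchar : ringChar k ≠ 2 := by
    rw [ringChar.eq k P.p]; omega
  intro a b
  -- the discriminant is a square
  obtain ⟨s, hs⟩ : ∃ s : k, s * s = castK P k (a ^ 2 - 4 * b) := by
    by_cases hd : a ^ 2 - 4 * b = 0
    · exact ⟨0, by rw [hd]; simp⟩
    · have hx0 : castK P k (a ^ 2 - 4 * b) ≠ 0 := by
        rw [Ne, map_eq_zero]; exact hd
      have hsq : IsSquare (castK P k (a ^ 2 - 4 * b)) := by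
        rw [FiniteField.isSquare_iff hchar hx0]
        have hc : Fintype.card k = P.p ^ 2 := by rw [← Nat.card_eq_fintype_card, hcard]
        obtain ⟨m, hm⟩ := P.hp_odd
        have e : Fintype.card k / 2 = (P.p - 1) * (m + 1) := by
          rw [hc, hm]
          have : (2 * m + 1) ^ 2 = 2 * ((2 * m + 1 - 1) * (m + 1)) + 1 := by
            have : 2 * m + 1 - 1 = 2 * m := by omega
            rw [this]; ring
          omega
        rw [e, pow_mul, ← map_pow, ZMod.pow_card_sub_one_eq_one hd, map_one, one_pow]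
      obtain ⟨s, hs⟩ := hsq
      exact ⟨s, hs.symm⟩
  refine ⟨(castK P k a + s) / 2, (castK P k a - s) / 2, ?_⟩
  have e1 : castK P k a = (castK P k a + s) / 2 + (castK P k a - s) / 2 := by
    field_simp; ring
  have e2 : castK P k b = (castK P k a + s) / 2 * ((castK P k a - s) / 2) := by
    rw [map_sub, map_pow, map_mul, map_ofNat] at hs
    field_simp
    linear_combination hs
  generalize (castK P k a + s) / 2 = α at e1 e2
  generalize (castK P k a - s) / 2 = β at e1 e2
  rw [e1, e2, C_add, C_mul]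
  ring

end K

end Fermat.Agent.TW.ESide
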